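/-
S14 [ClassZeta] route (d) (helper32), layer 1: sums over the nonzero elements of an ideal `J`
of `𝓞 K`, fibred over the unit orbits, are sums over the integral ideals of the class `[J]⁻¹`.
Mathlib only; all sums are `ℝ≥0∞`-valued, so no summability side conditions.
-/
import Mathlib

set_option autoImplicit false
set_option linter.unusedSectionVars false

noncomputable section

namespace Fermat.Agent.Lib.NestedZeta

open NumberField Ideal nonZeroDivisors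
open scoped ENNReal

variable {K : Type*} [Field K] [NumberField K]

/-- the nonzero elements of `J`. -/
abbrev NzMem (J : Ideal (𝓞 K)) : Type _ := {γ : 𝓞 K // γ ∈ J ∧ γ ≠ 0}

/-- the nonzero principal ideals contained in `J`. -/
abbrev PrincLe (J : Ideal (𝓞 K)) : Type _ :=
  {P : Ideal (𝓞 K) // P ≠ ⊥ ∧ P.IsPrincipal ∧ P ≤ J}

/-- the integral ideals in the class `[J]⁻¹`. -/
abbrev ClassInv (J : (Ideal (𝓞 K))⁰) : Type _ :=
  {I : (Ideal (𝓞 K))⁰ // ClassGroup.mk0 I = (ClassGroup.mk0 J)⁻¹}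

section Gen

variable (J : Ideal (𝓞 K))

/-- a chosen generator of a principal ideal. -/
def genOf (P : PrincLe J) : 𝓞 K :=
  @Submodule.IsPrincipal.generator _ _ _ _ _ P.1 P.2.2.1

theorem span_genOf (P : PrincLe J) : Ideal.span {genOf J P} = P.1 :=
  @Ideal.span_singleton_generator _ _ P.1 P.2.2.1

theorem genOf_ne_zero (P : PrincLe J) : genOf J P ≠ 0 := by
  intro h
  apply P.2.1
  rw [← span_genOf J P, h]
  exact Ideal.span_singleton_eq_bot.mpr rfl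

theorem genOf_mem (P : PrincLe J) : genOf J P ∈ J := by
  apply P.2.2.2
  rw [← span_genOf J P]
  exact Ideal.mem_span_singleton_self _

theorem span_unit_mul (u : (𝓞 K)ˣ) (x : 𝓞 K) :
    Ideal.span {(u : 𝓞 K) * x} = Ideal.span {x} :=
  Ideal.span_singleton_mul_left_unit u.isUnit x

/-- `(P, u) ↦ u * (generator of P)`. -/
def orbitFun (pu : PrincLe J × (𝓞 K)ˣ) : NzMem J :=
  ⟨(pu.2 : 𝓞 K) * genOf J pu.1, J.mul_mem_left _ (genOf_mem J pu.1),
    mul_ne_zero (Units.ne_zero _) (genOf_ne_zero J pu.1)⟩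

theorem orbitFun_bijective : Function.Bijective (orbitFun J) := by
  constructor
  · rintro ⟨P, u⟩ ⟨P', u'⟩ h
    have h1 : (u : 𝓞 K) * genOf J P = (u' : 𝓞 K) * genOf J P' := congrArg Subtype.val h
    have h2 : (Ideal.span {genOf J P} : Ideal (𝓞 K)) = Ideal.span {genOf J P'} := by
      rw [← span_unit_mul u (genOf J P), h1, span_unit_mul]
    have hP : P = P' := by
      apply Subtype.ext
      rw [← span_genOf J P, ← span_genOf J P']
      exact h2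
    subst hP
    have hu : (u : 𝓞 K) = (u' : 𝓞 K) := mul_right_cancel₀ (genOf_ne_zero J P) h1
    rw [Units.ext hu]
  · rintro ⟨γ, hγJ, hγ0⟩
    have hprinc : (Ideal.span {γ} : Ideal (𝓞 K)).IsPrincipal := ⟨γ, rfl⟩
    have hne : (Ideal.span {γ} : Ideal (𝓞 K)) ≠ ⊥ := by
      rw [Ne, Ideal.span_singleton_eq_bot]
      exact hγ0
    have hle : (Ideal.span {γ} : Ideal (𝓞 K)) ≤ J := by
      rw [Ideal.span_le, Set.singleton_subset_iff]
      exact hγJ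
    have hassoc : Associated (genOf J ⟨Ideal.span {γ}, hne, hprinc, hle⟩) γ :=
      Ideal.span_singleton_eq_span_singleton.mp (span_genOf J ⟨Ideal.span {γ}, hne, hprinc, hle⟩)
    obtain ⟨u, hu⟩ := hassoc
    refine ⟨(⟨Ideal.span {γ}, hne, hprinc, hle⟩, u), ?_⟩
    apply Subtype.ext
    show (u : 𝓞 K) * genOf J ⟨Ideal.span {γ}, hne, hprinc, hle⟩ = γ
    rw [mul_comm]
    exact hu

/-- every nonzero element of `J` is uniquely `u * (generator of a principal ideal ≤ J)`. -/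
def orbitEquiv : PrincLe J × (𝓞 K)ˣ ≃ NzMem J :=
  Equiv.ofBijective (orbitFun J) (orbitFun_bijective J)

theorem orbitEquiv_apply (P : PrincLe J) (u : (𝓞 K)ˣ) :
    ((orbitEquiv J (P, u) : NzMem J) : 𝓞 K) = (u : 𝓞 K) * genOf J P := by
  rw [orbitEquiv, Equiv.ofBijective_apply]
  rfl

theorem tsum_nzMem_eq (F : 𝓞 K → ℝ≥0∞) :
    ∑' γ : NzMem J, F γ = ∑' P : PrincLe J, ∑' u : (𝓞 K)ˣ, F ((u : 𝓞 K) * genOf J P) := by
  rw [← (orbitEquiv J).tsum_eq, ENNReal.tsum_prod']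
  refine tsum_congr fun P => tsum_congr fun u => ?_
  rw [orbitEquiv_apply]

/-- the general orbit formula. -/
theorem tsum_nzMem_mul (Ψ : 𝓞 K → ℝ≥0∞) (f : ℕ → ℝ≥0∞) :
    ∑' γ : NzMem J, Ψ γ * f (absNorm (Ideal.span {(γ : 𝓞 K)})) =
      ∑' P : PrincLe J, (∑' u : (𝓞 K)ˣ, Ψ ((u : 𝓞 K) * genOf J P)) * f (absNorm P.1) := by
  rw [tsum_nzMem_eq J (fun γ => Ψ γ * f (absNorm (Ideal.span {γ})))]
  refine tsum_congr fun P => ?_
  rw [← ENNReal.tsum_mul_right]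
  refine tsum_congr fun u => ?_
  rw [span_unit_mul, span_genOf]

end Gen

section ClassEquiv

variable (J : (Ideal (𝓞 K))⁰)

theorem coe_ne_bot (I : (Ideal (𝓞 K))⁰) : (I : Ideal (𝓞 K)) ≠ ⊥ :=
  nonZeroDivisors.coe_ne_zero I

/-- `I ↦ J * I`. -/
def classFun (I : ClassInv J) : PrincLe (J : Ideal (𝓞 K)) :=
  ⟨(J : Ideal (𝓞 K)) * ((I.1 : (Ideal (𝓞 K))⁰) : Ideal (𝓞 K)),
    mul_ne_zero (coe_ne_bot J) (coe_ne_bot I.1),
    by
      have h1 : ClassGroup.mk0 (J * I.1) = 1 := by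
        rw [map_mul, I.2, mul_inv_cancel]
      exact (ClassGroup.mk0_eq_one_iff (J * I.1).2).mp h1,
    Ideal.mul_le_left⟩

theorem classFun_bijective : Function.Bijective (classFun J) := by
  constructor
  · rintro ⟨I, hI⟩ ⟨I', hI'⟩ h
    have h1 : (J : Ideal (𝓞 K)) * (I : Ideal (𝓞 K)) = (J : Ideal (𝓞 K)) * (I' : Ideal (𝓞 K)) :=
      congrArg Subtype.val h
    have h2 : (I : Ideal (𝓞 K)) = (I' : Ideal (𝓞 K)) := mul_left_cancel₀ (coe_ne_bot J) h1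
    exact Subtype.ext (Subtype.ext h2)
  · rintro ⟨P, hP0, hPp, hPJ⟩
    obtain ⟨I, hI⟩ := Ideal.dvd_iff_le.mpr hPJ
    have hI0 : I ≠ ⊥ := by
      rintro rfl
      exact hP0 (by rw [hI, Ideal.mul_bot])
    have hImem : I ∈ (Ideal (𝓞 K))⁰ := mem_nonZeroDivisors_iff_ne_zero.mpr hI0
    have hcls : ClassGroup.mk0 ⟨I, hImem⟩ = (ClassGroup.mk0 J)⁻¹ := by
      have hPmem : P ∈ (Ideal (𝓞 K))⁰ := mem_nonZeroDivisors_iff_ne_zero.mpr hP0
      have h1 : ClassGroup.mk0 ⟨P, hPmem⟩ = 1 := (ClassGroup.mk0_eq_one_iff hPmem).mpr hPp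
      have h2 : (⟨P, hPmem⟩ : (Ideal (𝓞 K))⁰) = J * ⟨I, hImem⟩ := Subtype.ext hI
      rw [h2, map_mul] at h1
      exact eq_inv_of_mul_eq_one_right h1
    refine ⟨⟨⟨I, hImem⟩, hcls⟩, ?_⟩
    apply Subtype.ext
    exact hI.symm

/-- `I ↦ J * I` from the ideals of the class `[J]⁻¹` onto the nonzero principal ideals `≤ J`. -/
def classEquiv : ClassInv J ≃ PrincLe (J : Ideal (𝓞 K)) :=
  Equiv.ofBijective (classFun J) (classFun_bijective J)

theorem classEquiv_apply (I : ClassInv J) :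
    ((classEquiv J I : PrincLe (J : Ideal (𝓞 K))) : Ideal (𝓞 K)) =
      (J : Ideal (𝓞 K)) * ((I.1 : (Ideal (𝓞 K))⁰) : Ideal (𝓞 K)) := by
  rw [classEquiv, Equiv.ofBijective_apply]
  rfl

theorem tsum_princLe_eq (f : ℕ → ℝ≥0∞) :
    ∑' P : PrincLe (J : Ideal (𝓞 K)), f (absNorm P.1) =
      ∑' I : ClassInv J, f (absNorm (J : Ideal (𝓞 K)) *
        absNorm ((I.1 : (Ideal (𝓞 K))⁰) : Ideal (𝓞 K))) := by
  rw [← (classEquiv J).tsum_eq]
  refine tsum_congr fun I => ?_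
  rw [classEquiv_apply, map_mul]

/-- (A1) partition of unity: the lattice sum is the class sum. -/
theorem tsum_nzMem_of_tsum_eq_one (Ψ : 𝓞 K → ℝ≥0∞) (f : ℕ → ℝ≥0∞)
    (hΨ : ∀ x : 𝓞 K, x ≠ 0 → ∑' u : (𝓞 K)ˣ, Ψ ((u : 𝓞 K) * x) = 1) :
    ∑' γ : NzMem (J : Ideal (𝓞 K)), Ψ γ * f (absNorm (Ideal.span {(γ : 𝓞 K)})) =
      ∑' I : ClassInv J, f (absNorm (J : Ideal (𝓞 K)) *
        absNorm ((I.1 : (Ideal (𝓞 K))⁰) : Ideal (𝓞 K))) := by
  rw [tsum_nzMem_mul, ← tsum_princLe_eq]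
  refine tsum_congr fun P => ?_
  rw [hΨ _ (genOf_ne_zero _ P), one_mul]

/-- (A2) bounded multiplicity: the lattice sum is at most `M` times the class sum. -/
theorem tsum_nzMem_le_of_tsum_le (Ψ : 𝓞 K → ℝ≥0∞) (f : ℕ → ℝ≥0∞) (M : ℝ≥0∞)
    (hΨ : ∀ x : 𝓞 K, x ≠ 0 → ∑' u : (𝓞 K)ˣ, Ψ ((u : 𝓞 K) * x) ≤ M) :
    ∑' γ : NzMem (J : Ideal (𝓞 K)), Ψ γ * f (absNorm (Ideal.span {(γ : 𝓞 K)})) ≤
      M * ∑' I : ClassInv J, f (absNorm (J : Ideal (𝓞 K)) *
        absNorm ((I.1 : (Ideal (𝓞 K))⁰) : Ideal (𝓞 K))) := by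
  rw [tsum_nzMem_mul, ← tsum_princLe_eq, ← ENNReal.tsum_mul_left]
  refine ENNReal.tsum_le_tsum fun P => ?_
  exact mul_le_mul_left (hΨ _ (genOf_ne_zero _ P)) _

end ClassEquiv

end Fermat.Agent.Lib.NestedZeta
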