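/-
S14 [ClassZeta] route (d) (helper32), layer 2: a Lipschitz partition of unity for the action of
the units of `𝓞 K` on `K^×`, built from the logarithms of the infinite places.
Mathlib only; no measure theory.
-/
import Mathlib

set_option autoImplicit false
set_option linter.unusedSectionVars false
set_option linter.unusedVariables false

noncomputable section

namespace Fermat.Agent.Lib.NestedZeta

open NumberField InfinitePlace

variable {K : Type*} [Field K] [NumberField K]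

/-- the archimedean norm `∏_w |x|_w^{mult w} = |N x|`. -/
def nu (x : K) : ℝ := ∏ w : InfinitePlace K, w x ^ w.mult

/-- `log |N x|`. -/
def lnu (x : K) : ℝ := Real.log (nu x)

/-- the normalised logarithmic vector: `log |x|_w - (1/n) log |N x|`. -/
def lam (x : K) : InfinitePlace K → ℝ :=
  fun w => Real.log (w x) - lnu x / (Module.finrank ℚ K : ℝ)

/-- the logarithmic vector of a unit. -/
def unitLog (u : (𝓞 K)ˣ) : InfinitePlace K → ℝ :=
  fun w => Real.log (w ((u : 𝓞 K) : K))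

theorem nu_eq_abs_norm (x : K) : nu x = ((|Algebra.norm ℚ x| : ℚ) : ℝ) :=
  prod_eq_abs_norm x

theorem nu_nonneg (x : K) : 0 ≤ nu x :=
  Finset.prod_nonneg fun w _ => pow_nonneg (apply_nonneg w x) _

theorem nu_pos {x : K} (hx : x ≠ 0) : 0 < nu x :=
  Finset.prod_pos fun w _ => pow_pos (InfinitePlace.pos_iff.mpr hx) _

theorem nu_mul (x y : K) : nu (x * y) = nu x * nu y := by
  unfold nu
  rw [← Finset.prod_mul_distrib]
  refine Finset.prod_congr rfl fun w _ => ?_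
  rw [map_mul, mul_pow]

theorem nu_unit (u : (𝓞 K)ˣ) : nu ((u : 𝓞 K) : K) = 1 := by
  rw [nu_eq_abs_norm]
  have h := NumberField.Units.norm K u
  exact_mod_cast h

theorem lnu_unit_mul (u : (𝓞 K)ˣ) (x : K) : lnu (((u : 𝓞 K) : K) * x) = lnu x := by
  unfold lnu
  rw [nu_mul, nu_unit, one_mul]

theorem lnu_eq_sum {x : K} (hx : x ≠ 0) :
    lnu x = ∑ w : InfinitePlace K, (w.mult : ℝ) * Real.log (w x) := by
  unfold lnu nu
  rw [Real.log_prod]
  · refine Finset.sum_congr rfl fun w _ => ?_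
    rw [Real.log_pow]
  · intro w _
    exact pow_ne_zero _ (InfinitePlace.pos_iff.mpr hx).ne'

theorem finrank_pos_real : (0 : ℝ) < (Module.finrank ℚ K : ℝ) :=
  Nat.cast_pos.mpr Module.finrank_pos

theorem sum_mult_real : ∑ w : InfinitePlace K, (w.mult : ℝ) = (Module.finrank ℚ K : ℝ) := by
  have h := sum_mult_eq (K := K)
  exact_mod_cast h

/-- `Σ_w mult w · lam x w = 0`. -/
theorem sum_mult_mul_lam {x : K} (hx : x ≠ 0) :
    ∑ w : InfinitePlace K, (w.mult : ℝ) * lam x w = 0 := by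
  unfold lam
  simp only [mul_sub]
  rw [Finset.sum_sub_distrib, ← lnu_eq_sum hx, ← Finset.sum_mul, sum_mult_real,
    mul_div_cancel₀ _ finrank_pos_real.ne', sub_self]

theorem lam_unit_mul (u : (𝓞 K)ˣ) {x : K} (hx : x ≠ 0) :
    lam (((u : 𝓞 K) : K) * x) = lam x + unitLog u := by
  funext w
  have hu : 0 < w ((u : 𝓞 K) : K) := NumberField.Units.pos_at_place u w
  have hxw : 0 < w x := InfinitePlace.pos_iff.mpr hx
  simp only [lam, unitLog, Pi.add_apply]
  rw [lnu_unit_mul, map_mul, Real.log_mul hu.ne' hxw.ne']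
  ring

theorem unit_mul_ne_zero (u : (𝓞 K)ˣ) {x : K} (hx : x ≠ 0) : ((u : 𝓞 K) : K) * x ≠ 0 :=
  mul_ne_zero (by
    have := NumberField.Units.pos_at_place u (Classical.arbitrary (InfinitePlace K))
    exact (InfinitePlace.pos_iff.mp this)) hx

/-! ### Covering radius (Dirichlet's unit theorem, via Mathlib's fundamental cone) -/

open NumberField.mixedEmbedding NumberField.Units NumberField.Units.dirichletUnitTheorem in
theorem exists_covering_radius (K : Type*) [Field K] [NumberField K] :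
    ∃ R₀ : ℝ, 0 ≤ R₀ ∧ ∀ x : K, x ≠ 0 → ∃ u : (𝓞 K)ˣ, ‖lam (((u : 𝓞 K) : K) * x)‖ ≤ R₀ := by
  classical
  obtain ⟨C₁, hC₁⟩ := isBounded_iff_forall_norm_le.mp
    (ZSpan.fundamentalDomain_isBounded
      ((basisUnitLattice K).ofZLatticeBasis ℝ (unitLattice K)))
  obtain ⟨C, hC0, hC⟩ : ∃ C : ℝ, 0 ≤ C ∧ ∀ v ∈ ZSpan.fundamentalDomain
      ((basisUnitLattice K).ofZLatticeBasis ℝ (unitLattice K)), ‖v‖ ≤ C :=
    ⟨|C₁|, abs_nonneg _, fun v hv => (hC₁ v hv).trans (le_abs_self _)⟩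
  refine ⟨(Fintype.card (InfinitePlace K) : ℝ) * C + C, by positivity, fun x hx => ?_⟩
  have hnorm : mixedEmbedding.norm (mixedEmbedding K x) ≠ 0 := by
    rw [norm_eq_norm]
    simpa using hx
  obtain ⟨u, hu⟩ := fundamentalCone.exists_unit_smul_mem hnorm
  refine ⟨u, ?_⟩
  set y : K := ((u : 𝓞 K) : K) * x with hy
  have hy0 : y ≠ 0 := unit_mul_ne_zero u hx
  have hmem : logMap (mixedEmbedding K y) ∈
      ZSpan.fundamentalDomain ((basisUnitLattice K).ofZLatticeBasis ℝ (unitLattice K)) := by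
    have h1 := hu.1
    rw [Set.mem_preimage, unitSMul_smul, ← map_mul] at h1
    exact h1
  have hbd := hC _ hmem
  have hw : ∀ w : InfinitePlace K, w ≠ w₀ → |(w.mult : ℝ) * lam y w| ≤ C := by
    intro w hw
    have h2 := (norm_le_pi_norm (logMap (mixedEmbedding K y)) ⟨w, hw⟩).trans hbd
    rw [logMap_apply, normAtPlace_apply, norm_eq_norm, Real.norm_eq_abs] at h2
    have h3 : lam y w = Real.log (w y) - Real.log ((|Algebra.norm ℚ y| : ℚ) : ℝ) *
        (Module.finrank ℚ K : ℝ)⁻¹ := by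
      simp only [lam, lnu, nu_eq_abs_norm, div_eq_mul_inv]
    rw [h3]
    exact h2
  have hw' : ∀ w : InfinitePlace K, w ≠ w₀ → |lam y w| ≤ C := by
    intro w hw0
    have h1 := hw w hw0
    rw [abs_mul] at h1
    have h2 : (1 : ℝ) ≤ |(w.mult : ℝ)| := by
      rw [abs_of_nonneg (Nat.cast_nonneg _)]
      exact_mod_cast InfinitePlace.one_le_mult
    calc |lam y w| = 1 * |lam y w| := (one_mul _).symm
      _ ≤ |(w.mult : ℝ)| * |lam y w| := mul_le_mul_of_nonneg_right h2 (abs_nonneg _)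
      _ ≤ C := h1
  have hw0 : |lam y w₀| ≤ (Fintype.card (InfinitePlace K) : ℝ) * C := by
    have hsum := sum_mult_mul_lam hy0
    rw [← Finset.add_sum_erase Finset.univ _ (Finset.mem_univ (w₀ : InfinitePlace K))] at hsum
    have h1 : ((w₀ : InfinitePlace K).mult : ℝ) * lam y w₀ =
        -∑ w ∈ Finset.univ.erase (w₀ : InfinitePlace K), (w.mult : ℝ) * lam y w := by
      linarith
    have h2 : |((w₀ : InfinitePlace K).mult : ℝ) * lam y w₀| ≤
        (Fintype.card (InfinitePlace K) : ℝ) * C := by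
      rw [h1, abs_neg]
      calc |∑ w ∈ Finset.univ.erase (w₀ : InfinitePlace K), (w.mult : ℝ) * lam y w|
          ≤ ∑ w ∈ Finset.univ.erase (w₀ : InfinitePlace K), |(w.mult : ℝ) * lam y w| :=
            Finset.abs_sum_le_sum_abs _ _
        _ ≤ ∑ w ∈ Finset.univ.erase (w₀ : InfinitePlace K), C :=
            Finset.sum_le_sum fun w hw1 => hw w (Finset.ne_of_mem_erase hw1)
        _ = ((Finset.univ.erase (w₀ : InfinitePlace K)).card : ℝ) * C := by
            rw [Finset.sum_const, nsmul_eq_mul]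
        _ ≤ (Fintype.card (InfinitePlace K) : ℝ) * C := by
            refine mul_le_mul_of_nonneg_right ?_ hC0
            exact_mod_cast Finset.card_le_univ _
    rw [abs_mul] at h2
    have h3 : (1 : ℝ) ≤ |((w₀ : InfinitePlace K).mult : ℝ)| := by
      rw [abs_of_nonneg (Nat.cast_nonneg _)]
      exact_mod_cast InfinitePlace.one_le_mult
    calc |lam y w₀| = 1 * |lam y w₀| := (one_mul _).symm
      _ ≤ |((w₀ : InfinitePlace K).mult : ℝ)| * |lam y w₀| :=
          mul_le_mul_of_nonneg_right h3 (abs_nonneg _)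
      _ ≤ _ := h2
  rw [pi_norm_le_iff_of_nonneg (by positivity)]
  intro w
  rw [Real.norm_eq_abs]
  by_cases hww : w = w₀
  · rw [hww]
    linarith
  · have := hw' w hww
    have h5 : 0 ≤ (Fintype.card (InfinitePlace K) : ℝ) * C := by positivity
    linarith

/-! ### Finiteness of units with bounded logarithms -/

theorem finite_unitLog_le (B : ℝ) : {u : (𝓞 K)ˣ | ‖unitLog u‖ ≤ B}.Finite := by
  have hfin := Embeddings.finite_of_norm_le K ℂ (Real.exp B)
  refine Set.Finite.of_finite_image (f := fun u : (𝓞 K)ˣ => ((u : 𝓞 K) : K)) (hfin.subset ?_) ?_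
  · rintro _ ⟨u, hu, rfl⟩
    refine ⟨(u : 𝓞 K).2, fun φ => ?_⟩
    rw [← InfinitePlace.apply φ]
    have h1 : unitLog u (InfinitePlace.mk φ) ≤ B :=
      (le_abs_self _).trans ((norm_le_pi_norm (unitLog u) (InfinitePlace.mk φ)).trans hu)
    have hpos : 0 < (InfinitePlace.mk φ) ((u : 𝓞 K) : K) := NumberField.Units.pos_at_place u _
    calc (InfinitePlace.mk φ) ((u : 𝓞 K) : K)
        = Real.exp (Real.log ((InfinitePlace.mk φ) ((u : 𝓞 K) : K))) := (Real.exp_log hpos).symm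
      _ ≤ Real.exp B := Real.exp_le_exp.mpr h1
  · intro u _ v _ h
    exact Units.ext (RingOfIntegers.ext h)

/-! ### The tent function and the orbit sum -/

/-- the tent function `max 0 (R - ‖v‖)`. -/
def tent (R : ℝ) (v : InfinitePlace K → ℝ) : ℝ := max 0 (R - ‖v‖)

theorem tent_nonneg (R : ℝ) (v : InfinitePlace K → ℝ) : 0 ≤ tent R v := le_max_left _ _

theorem le_tent (R : ℝ) (v : InfinitePlace K → ℝ) : R - ‖v‖ ≤ tent R v := le_max_right _ _

theorem tent_eq_zero {R : ℝ} {v : InfinitePlace K → ℝ} (h : R ≤ ‖v‖) : tent R v = 0 :=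
  max_eq_left (by linarith)

theorem tent_le_add (R : ℝ) (v v' : InfinitePlace K → ℝ) :
    tent R v ≤ tent R v' + ‖v - v'‖ := by
  unfold tent
  have h := norm_sub_norm_le v' v
  rw [norm_sub_rev] at h
  have h0 := norm_nonneg (v - v')
  rcases le_total 0 (R - ‖v‖) with h1 | h1
  · rw [max_eq_right h1]
    have : R - ‖v'‖ ≤ max 0 (R - ‖v'‖) := le_max_right _ _
    linarith
  · rw [max_eq_left h1]
    have : 0 ≤ max 0 (R - ‖v'‖) := le_max_left _ _
    linarith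

/-- the units moving `x` into the ball of radius `R`. -/
def Sset (R : ℝ) (x : K) : Set (𝓞 K)ˣ := {u | ‖lam (((u : 𝓞 K) : K) * x)‖ < R}

/-- the units with logarithmic vector of norm `≤ 2R`. -/
def Tset (K : Type*) [Field K] [NumberField K] (R : ℝ) : Set (𝓞 K)ˣ := {v | ‖unitLog v‖ ≤ 2 * R}

theorem Tset_finite (R : ℝ) : (Tset K R).Finite := finite_unitLog_le _

theorem Sset_subset (R : ℝ) {x : K} (hx : x ≠ 0) {u₁ : (𝓞 K)ˣ} (hu₁ : u₁ ∈ Sset R x) :
    Sset R x ⊆ (fun v : (𝓞 K)ˣ => v * u₁) '' Tset K R := by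
  intro u hu
  refine ⟨u * u₁⁻¹, ?_, by simp⟩
  have hx1 : ((u₁ : 𝓞 K) : K) * x ≠ 0 := unit_mul_ne_zero u₁ hx
  have h1 : lam (((u : 𝓞 K) : K) * x) = lam (((u₁ : 𝓞 K) : K) * x) + unitLog (u * u₁⁻¹) := by
    rw [← lam_unit_mul _ hx1, ← mul_assoc, ← map_mul, ← Units.val_mul, inv_mul_cancel_right]
  have h2 : unitLog (u * u₁⁻¹) = lam (((u : 𝓞 K) : K) * x) - lam (((u₁ : 𝓞 K) : K) * x) := by
    rw [h1]; abel
  show ‖unitLog (u * u₁⁻¹)‖ ≤ 2 * R
  rw [h2]
  have h3 := norm_sub_le (lam (((u : 𝓞 K) : K) * x)) (lam (((u₁ : 𝓞 K) : K) * x))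
  have h4 : ‖lam (((u : 𝓞 K) : K) * x)‖ < R := hu
  have h5 : ‖lam (((u₁ : 𝓞 K) : K) * x)‖ < R := hu₁
  linarith

theorem Sset_finite (R : ℝ) {x : K} (hx : x ≠ 0) : (Sset R x).Finite := by
  rcases (Sset R x).eq_empty_or_nonempty with h | ⟨u₁, hu₁⟩
  · rw [h]; exact Set.finite_empty
  · exact ((Tset_finite R).image _).subset (Sset_subset R hx hu₁)

theorem ncard_Sset_le (R : ℝ) {x : K} (hx : x ≠ 0) : (Sset R x).ncard ≤ (Tset K R).ncard := by
  rcases (Sset R x).eq_empty_or_nonempty with h | ⟨u₁, hu₁⟩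
  · rw [h, Set.ncard_empty]; exact Nat.zero_le _
  · exact (Set.ncard_le_ncard (Sset_subset R hx hu₁) ((Tset_finite R).image _)).trans
      (Set.ncard_image_le (Tset_finite R))

theorem tent_eq_zero_of_notMem {R : ℝ} {x : K} {u : (𝓞 K)ˣ} (hu : u ∉ Sset R x) :
    tent R (lam (((u : 𝓞 K) : K) * x)) = 0 :=
  tent_eq_zero (not_lt.mp hu)

theorem support_tent_subset (R : ℝ) (x : K) :
    Function.support (fun u : (𝓞 K)ˣ => tent R (lam (((u : 𝓞 K) : K) * x))) ⊆ Sset R x := by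
  intro u hu
  by_contra h
  exact hu (tent_eq_zero_of_notMem h)

theorem summable_tent (R : ℝ) {x : K} (hx : x ≠ 0) :
    Summable (fun u : (𝓞 K)ˣ => tent R (lam (((u : 𝓞 K) : K) * x))) :=
  summable_of_hasFiniteSupport ((Sset_finite R hx).subset (support_tent_subset R x))

/-- the orbit sum of the tent function. -/
def Dsum (R : ℝ) (x : K) : ℝ := ∑' u : (𝓞 K)ˣ, tent R (lam (((u : 𝓞 K) : K) * x))

/-- the partition of unity. -/
def Phi (R : ℝ) (x : K) : ℝ := tent R (lam x) / Dsum R x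

/-- the indicator of the balanced elements. -/
def bal (R : ℝ) (x : K) : ℝ := if ‖lam x‖ < R then 1 else 0

theorem Dsum_nonneg (R : ℝ) (x : K) : 0 ≤ Dsum R x := tsum_nonneg fun _ => tent_nonneg _ _

theorem Dsum_unit_mul (R : ℝ) (u : (𝓞 K)ˣ) (x : K) :
    Dsum R (((u : 𝓞 K) : K) * x) = Dsum R x := by
  unfold Dsum
  rw [← (Equiv.mulRight u).tsum_eq (fun v : (𝓞 K)ˣ => tent R (lam (((v : 𝓞 K) : K) * x)))]
  refine tsum_congr fun v => ?_
  simp only [Equiv.coe_mulRight, Units.val_mul, RingOfIntegers.coe_eq_algebraMap, map_mul,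
    mul_assoc]

theorem tent_le_Dsum (R : ℝ) {x : K} (hx : x ≠ 0) : tent R (lam x) ≤ Dsum R x := by
  have h := (summable_tent R hx).le_tsum (1 : (𝓞 K)ˣ) (fun j _ => tent_nonneg _ _)
  unfold Dsum
  simpa using h

theorem one_le_Dsum {R : ℝ}
    (hcov : ∀ x : K, x ≠ 0 → ∃ u : (𝓞 K)ˣ, ‖lam (((u : 𝓞 K) : K) * x)‖ ≤ R - 1)
    {x : K} (hx : x ≠ 0) : 1 ≤ Dsum R x := by
  obtain ⟨u, hu⟩ := hcov x hx
  have h := (summable_tent R hx).le_tsum u (fun j _ => tent_nonneg _ _)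
  have h2 := le_tent R (lam (((u : 𝓞 K) : K) * x))
  unfold Dsum
  linarith

theorem Phi_nonneg (R : ℝ) (x : K) : 0 ≤ Phi R x :=
  div_nonneg (tent_nonneg _ _) (Dsum_nonneg _ _)

theorem Phi_le_one (R : ℝ) {x : K} (hx : x ≠ 0) : Phi R x ≤ 1 :=
  div_le_one_of_le₀ (tent_le_Dsum R hx) (Dsum_nonneg _ _)

theorem Phi_eq_zero {R : ℝ} {x : K} (h : R ≤ ‖lam x‖) : Phi R x = 0 := by
  unfold Phi
  rw [tent_eq_zero h, zero_div]

theorem bal_nonneg (R : ℝ) (x : K) : 0 ≤ bal R x := by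
  unfold bal
  split_ifs <;> norm_num

theorem bal_le_one (R : ℝ) (x : K) : bal R x ≤ 1 := by
  unfold bal
  split_ifs <;> norm_num

theorem Phi_le_bal (R : ℝ) {x : K} (hx : x ≠ 0) : Phi R x ≤ bal R x := by
  unfold bal
  split_ifs with h
  · exact Phi_le_one R hx
  · exact (Phi_eq_zero (not_lt.mp h)).le

theorem hasSum_Phi {R : ℝ}
    (hcov : ∀ x : K, x ≠ 0 → ∃ u : (𝓞 K)ˣ, ‖lam (((u : 𝓞 K) : K) * x)‖ ≤ R - 1)
    {x : K} (hx : x ≠ 0) : HasSum (fun u : (𝓞 K)ˣ => Phi R (((u : 𝓞 K) : K) * x)) 1 := by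
  have hD : Dsum R x ≠ 0 := (lt_of_lt_of_le one_pos (one_le_Dsum hcov hx)).ne'
  have h := (summable_tent R hx).hasSum.div_const (Dsum R x)
  have h1 : (∑' u : (𝓞 K)ˣ, tent R (lam (((u : 𝓞 K) : K) * x))) / Dsum R x = 1 := div_self hD
  rw [h1] at h
  have h2 : (fun u : (𝓞 K)ˣ => Phi R (((u : 𝓞 K) : K) * x)) =
      fun u : (𝓞 K)ˣ => tent R (lam (((u : 𝓞 K) : K) * x)) / Dsum R x := by
    funext u
    unfold Phi
    rw [Dsum_unit_mul]
  rw [h2]
  exact h

/-! ### Lipschitz estimates -/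

/-- the number of units with logarithmic vector of norm `≤ 2R`. -/
def N0 (K : Type*) [Field K] [NumberField K] (R : ℝ) : ℝ := ((Tset K R).ncard : ℝ)

theorem N0_nonneg (R : ℝ) : 0 ≤ N0 K R := Nat.cast_nonneg _

theorem lam_unit_mul_sub (u : (𝓞 K)ˣ) {x y : K} (hx : x ≠ 0) (hy : y ≠ 0) :
    lam (((u : 𝓞 K) : K) * x) - lam (((u : 𝓞 K) : K) * y) = lam x - lam y := by
  rw [lam_unit_mul u hx, lam_unit_mul u hy]; abel

theorem card_toFinset_Sset_le (R : ℝ) {x : K} (hx : x ≠ 0) :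
    (((Sset_finite R hx).toFinset.card : ℕ) : ℝ) ≤ N0 K R := by
  unfold N0
  rw [← Set.ncard_eq_toFinset_card _ (Sset_finite R hx)]
  exact_mod_cast ncard_Sset_le R hx

theorem Dsum_le_add (R : ℝ) {x y : K} (hx : x ≠ 0) (hy : y ≠ 0) {ε : ℝ}
    (hε : ‖lam x - lam y‖ ≤ ε) : Dsum R x ≤ Dsum R y + N0 K R * ε := by
  have hε0 : 0 ≤ ε := (norm_nonneg _).trans hε
  have hfin := Sset_finite R hx
  have h1 : Dsum R x = ∑ u ∈ hfin.toFinset, tent R (lam (((u : 𝓞 K) : K) * x)) := by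
    unfold Dsum
    refine tsum_eq_sum fun u hu => ?_
    exact tent_eq_zero_of_notMem (by simpa using hu)
  have h2 : ∑ u ∈ hfin.toFinset, tent R (lam (((u : 𝓞 K) : K) * x)) ≤
      ∑ u ∈ hfin.toFinset, (tent R (lam (((u : 𝓞 K) : K) * y)) + ε) := by
    refine Finset.sum_le_sum fun u _ => ?_
    have h3 := tent_le_add R (lam (((u : 𝓞 K) : K) * x)) (lam (((u : 𝓞 K) : K) * y))
    rw [lam_unit_mul_sub u hx hy] at h3
    linarith
  have h4 : ∑ u ∈ hfin.toFinset, tent R (lam (((u : 𝓞 K) : K) * y)) ≤ Dsum R y :=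
    (summable_tent R hy).sum_le_tsum _ (fun _ _ => tent_nonneg _ _)
  have h5 := card_toFinset_Sset_le R hx
  rw [h1]
  refine h2.trans ?_
  rw [Finset.sum_add_distrib, Finset.sum_const, nsmul_eq_mul]
  have h6 : (hfin.toFinset.card : ℝ) * ε ≤ N0 K R * ε := mul_le_mul_of_nonneg_right h5 hε0
  linarith

theorem Phi_le_add {R : ℝ}
    (hcov : ∀ x : K, x ≠ 0 → ∃ u : (𝓞 K)ˣ, ‖lam (((u : 𝓞 K) : K) * x)‖ ≤ R - 1)
    {x y : K} (hx : x ≠ 0) (hy : y ≠ 0) {ε : ℝ} (hε : ‖lam x - lam y‖ ≤ ε) :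
    Phi R y ≤ Phi R x + (N0 K R + 1) * ε := by
  have hε0 : 0 ≤ ε := (norm_nonneg _).trans hε
  have hDx := one_le_Dsum hcov hx
  have hDy := one_le_Dsum hcov hy
  have hDD := Dsum_le_add R hx hy hε
  have ht : tent R (lam y) ≤ tent R (lam x) + ε := by
    have := tent_le_add R (lam y) (lam x)
    rw [norm_sub_rev] at this
    linarith
  have hPx : Phi R x * Dsum R x = tent R (lam x) := by
    unfold Phi
    exact div_mul_cancel₀ _ (by linarith : Dsum R x ≠ 0)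
  have hPy : Phi R y * Dsum R y = tent R (lam y) := by
    unfold Phi
    exact div_mul_cancel₀ _ (by linarith : Dsum R y ≠ 0)
  have hPx0 := Phi_nonneg R x
  have hPx1 := Phi_le_one R hx
  have hN := N0_nonneg (K := K) R
  have key : Phi R y * Dsum R y ≤ (Phi R x + (N0 K R + 1) * ε) * Dsum R y := by
    have h1 : Phi R x * Dsum R x ≤ Phi R x * (Dsum R y + N0 K R * ε) :=
      mul_le_mul_of_nonneg_left hDD hPx0
    have h2 : Phi R x * (N0 K R * ε) ≤ 1 * (N0 K R * ε) :=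
      mul_le_mul_of_nonneg_right hPx1 (by positivity)
    have h3 : (N0 K R + 1) * ε * 1 ≤ (N0 K R + 1) * ε * Dsum R y :=
      mul_le_mul_of_nonneg_left hDy (by positivity)
    nlinarith
  exact le_of_mul_le_mul_right key (by linarith)

theorem abs_log_sub_log_le {p q t : ℝ} (hp : 0 < p) (hq : 0 < q) (ht0 : 0 ≤ t) (ht : t ≤ 1 / 2)
    (h : |p - q| ≤ t * q) : |Real.log p - Real.log q| ≤ 2 * t := by
  have h1 := abs_le.mp h
  rw [abs_le]
  constructor
  · have hpq : (1 - t) * q ≤ p := by linarith [h1.1]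
    have h3 : Real.log (q / p) ≤ q / p - 1 := Real.log_le_sub_one_of_pos (div_pos hq hp)
    rw [Real.log_div hq.ne' hp.ne'] at h3
    have h4 : q / p ≤ 1 + 2 * t := by
      rw [div_le_iff₀ hp]
      have h5 : (1 + 2 * t) * ((1 - t) * q) ≤ (1 + 2 * t) * p :=
        mul_le_mul_of_nonneg_left hpq (by linarith)
      have h6 : 0 ≤ t * (1 - 2 * t) * q :=
        mul_nonneg (mul_nonneg ht0 (by linarith)) hq.le
      nlinarith
    linarith
  · have h3 : Real.log (p / q) ≤ p / q - 1 := Real.log_le_sub_one_of_pos (div_pos hp hq)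
    rw [Real.log_div hp.ne' hq.ne'] at h3
    have h4 : p / q ≤ 1 + t := by
      rw [div_le_iff₀ hq]; linarith [h1.2]
    linarith

theorem lam_sub_le {x y : K} (hx : x ≠ 0) (hy : y ≠ 0) {t : ℝ} (ht0 : 0 ≤ t) (ht : t ≤ 1 / 2)
    (h : ∀ w : InfinitePlace K, |w x - w y| ≤ t * w y) :
    |lnu x - lnu y| ≤ 2 * (Module.finrank ℚ K : ℝ) * t ∧ ‖lam x - lam y‖ ≤ 4 * t := by
  have hlog : ∀ w : InfinitePlace K, |Real.log (w x) - Real.log (w y)| ≤ 2 * t := fun w =>
    abs_log_sub_log_le (InfinitePlace.pos_iff.mpr hx) (InfinitePlace.pos_iff.mpr hy) ht0 ht (h w)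
  have hL : |lnu x - lnu y| ≤ 2 * (Module.finrank ℚ K : ℝ) * t := by
    rw [lnu_eq_sum hx, lnu_eq_sum hy, ← Finset.sum_sub_distrib]
    calc |∑ w : InfinitePlace K, ((w.mult : ℝ) * Real.log (w x) - (w.mult : ℝ) * Real.log (w y))|
        ≤ ∑ w : InfinitePlace K,
            |(w.mult : ℝ) * Real.log (w x) - (w.mult : ℝ) * Real.log (w y)| :=
          Finset.abs_sum_le_sum_abs _ _
      _ ≤ ∑ w : InfinitePlace K, (w.mult : ℝ) * (2 * t) := by
          refine Finset.sum_le_sum fun w _ => ?_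
          rw [← mul_sub, abs_mul, abs_of_nonneg (Nat.cast_nonneg _)]
          exact mul_le_mul_of_nonneg_left (hlog w) (Nat.cast_nonneg _)
      _ = 2 * (Module.finrank ℚ K : ℝ) * t := by
          rw [← Finset.sum_mul, sum_mult_real]; ring
  refine ⟨hL, ?_⟩
  rw [pi_norm_le_iff_of_nonneg (by positivity)]
  intro w
  rw [Real.norm_eq_abs]
  have hn := finrank_pos_real (K := K)
  have h1 : (lam x - lam y) w = (Real.log (w x) - Real.log (w y)) -
      (lnu x - lnu y) / (Module.finrank ℚ K : ℝ) := by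
    simp only [Pi.sub_apply, lam]; ring
  rw [h1]
  have h2 : |(lnu x - lnu y) / (Module.finrank ℚ K : ℝ)| ≤ 2 * t := by
    rw [abs_div, abs_of_pos hn, div_le_iff₀ hn]
    linarith
  calc |(Real.log (w x) - Real.log (w y)) - (lnu x - lnu y) / (Module.finrank ℚ K : ℝ)|
      ≤ |Real.log (w x) - Real.log (w y)| + |(lnu x - lnu y) / (Module.finrank ℚ K : ℝ)| :=
        abs_sub _ _
    _ ≤ 2 * t + 2 * t := add_le_add (hlog w) h2
    _ = 4 * t := by ring

theorem exp_le_of_bal {R : ℝ} {y : K} (hy : y ≠ 0) (hb : ‖lam y‖ < R) (w : InfinitePlace K) :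
    Real.exp (lnu y / (Module.finrank ℚ K : ℝ) - R) ≤ w y := by
  have h1 : |lam y w| < R := by
    have := norm_le_pi_norm (lam y) w
    rw [Real.norm_eq_abs] at this
    exact lt_of_le_of_lt this hb
  have h2 := (abs_lt.mp h1).1
  have hpos : 0 < w y := InfinitePlace.pos_iff.mpr hy
  rw [← Real.exp_log hpos]
  apply Real.exp_le_exp.mpr
  simp only [lam] at h2
  linarith

theorem exp_le_two {z : ℝ} (h0 : 0 ≤ z) (h1 : z ≤ 1) : Real.exp z ≤ 1 + 2 * z := by
  have h := Real.abs_exp_sub_one_le (x := z) (by rw [abs_of_nonneg h0]; exact h1)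
  rw [abs_of_nonneg h0] at h
  have h2 := (abs_le.mp h).2
  linarith

/-- the key estimate: a one-sided Lipschitz bound for `Phi * |N|^{-s}` under bounded shifts. -/
theorem key_estimate {R : ℝ}
    (hcov : ∀ x : K, x ≠ 0 → ∃ u : (𝓞 K)ˣ, ‖lam (((u : 𝓞 K) : K) * x)‖ ≤ R - 1)
    (Δ : ℝ) (hΔ : 0 ≤ Δ) :
    ∃ C : ℝ, 0 ≤ C ∧ ∀ s : ℝ, 1 ≤ s → s ≤ 2 → ∀ x y : K, x ≠ 0 → y ≠ 0 → 0 ≤ lnu x → 0 ≤ lnu y →
      (∀ w : InfinitePlace K, w (x - y) ≤ Δ) →
      Phi R y * Real.exp (-s * lnu y) ≤ Phi R x * Real.exp (-s * lnu x)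
        + C * bal R x * Real.exp (-(1 + 1 / (Module.finrank ℚ K : ℝ)) * lnu x)
        + C * bal R y * Real.exp (-(1 + 1 / (Module.finrank ℚ K : ℝ)) * lnu y) := by
  have hn0 : (0 : ℝ) < (Module.finrank ℚ K : ℝ) := finrank_pos_real
  have hn1 : (1 : ℝ) ≤ (Module.finrank ℚ K : ℝ) := by
    exact_mod_cast (Module.finrank_pos (R := ℚ) (M := K))
  have hE0 : 0 < Real.exp R := Real.exp_pos R
  have hN := N0_nonneg (K := K) R
  have hA0 : 0 ≤ 4 * (Module.finrank ℚ K : ℝ) * Δ * Real.exp R := by positivity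
  have hC1 : 0 ≤ (4 * (Module.finrank ℚ K : ℝ) * Δ * Real.exp R) ^ (Module.finrank ℚ K + 1) :=
    pow_nonneg hA0 _
  have hC2 : 0 ≤ 16 * (Module.finrank ℚ K : ℝ) * Δ * Real.exp R := by positivity
  have hC3 : 0 ≤ (N0 K R + 1) * (4 * Δ * Real.exp R) := by positivity
  refine ⟨(4 * (Module.finrank ℚ K : ℝ) * Δ * Real.exp R) ^ (Module.finrank ℚ K + 1)
    + 16 * (Module.finrank ℚ K : ℝ) * Δ * Real.exp R
    + (N0 K R + 1) * (4 * Δ * Real.exp R), by positivity, ?_⟩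
  intro s hs1 hs2 x y hx hy hLx hLy hΔw
  generalize hC1' : (4 * (Module.finrank ℚ K : ℝ) * Δ * Real.exp R) ^ (Module.finrank ℚ K + 1)
    = C1 at hC1 ⊢
  generalize hC2' : 16 * (Module.finrank ℚ K : ℝ) * Δ * Real.exp R = C2 at hC2 ⊢
  generalize hC3' : (N0 K R + 1) * (4 * Δ * Real.exp R) = C3 at hC3 ⊢
  have hkx : 0 < Real.exp (-(1 + 1 / (Module.finrank ℚ K : ℝ)) * lnu x) := Real.exp_pos _
  have hky : 0 < Real.exp (-(1 + 1 / (Module.finrank ℚ K : ℝ)) * lnu y) := Real.exp_pos _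
  have hex : 0 < Real.exp (-s * lnu x) := Real.exp_pos _
  have hey : 0 < Real.exp (-s * lnu y) := Real.exp_pos _
  have hPx0 := Phi_nonneg R x
  have hPy0 := Phi_nonneg R y
  have hbx0 := bal_nonneg R x
  have hby0 := bal_nonneg R y
  have hTx : 0 ≤ (C1 + C2 + C3) * bal R x *
      Real.exp (-(1 + 1 / (Module.finrank ℚ K : ℝ)) * lnu x) := by positivity
  have hTy : 0 ≤ (C1 + C2 + C3) * bal R y *
      Real.exp (-(1 + 1 / (Module.finrank ℚ K : ℝ)) * lnu y) := by positivity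
  have hFx : 0 ≤ Phi R x * Real.exp (-s * lnu x) := by positivity
  by_cases hb : ‖lam y‖ < R
  swap
  · rw [Phi_eq_zero (not_lt.mp hb), zero_mul]
    linarith
  have hbal : bal R y = 1 := by unfold bal; rw [if_pos hb]
  rw [hbal, mul_one]
  have hey1 : Real.exp (-s * lnu y) ≤ 1 := by
    rw [Real.exp_le_one_iff]
    have : 0 ≤ s * lnu y := mul_nonneg (by linarith) hLy
    linarith
  by_cases hA : 4 * (Module.finrank ℚ K : ℝ) * Δ * Real.exp R ≤
      Real.exp (lnu y / (Module.finrank ℚ K : ℝ))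
  swap
  · -- small norm: trivial bound
    have hA' := (not_le.mp hA).le
    have h1 : Phi R y * Real.exp (-s * lnu y) ≤ 1 := by
      calc Phi R y * Real.exp (-s * lnu y) ≤ 1 * 1 :=
            mul_le_mul (Phi_le_one R hy) hey1 hey.le zero_le_one
        _ = 1 := one_mul 1
    have h2 : Real.exp ((1 + 1 / (Module.finrank ℚ K : ℝ)) * lnu y) ≤ C1 := by
      have h3 : (1 + 1 / (Module.finrank ℚ K : ℝ)) * lnu y =
          ((Module.finrank ℚ K + 1 : ℕ) : ℝ) * (lnu y / (Module.finrank ℚ K : ℝ)) := by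
        push_cast
        field_simp
      rw [h3, Real.exp_nat_mul, ← hC1']
      exact pow_le_pow_left₀ (Real.exp_pos _).le hA' _
    have h4 : 1 ≤ C1 * Real.exp (-(1 + 1 / (Module.finrank ℚ K : ℝ)) * lnu y) := by
      have h5 : Real.exp ((1 + 1 / (Module.finrank ℚ K : ℝ)) * lnu y) *
          Real.exp (-(1 + 1 / (Module.finrank ℚ K : ℝ)) * lnu y) = 1 := by
        rw [← Real.exp_add]
        have : (1 + 1 / (Module.finrank ℚ K : ℝ)) * lnu y +
            -(1 + 1 / (Module.finrank ℚ K : ℝ)) * lnu y = 0 := by ring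
        rw [this, Real.exp_zero]
      exact h5.symm.le.trans (mul_le_mul_of_nonneg_right h2 hky.le)
    have h6 : C1 * Real.exp (-(1 + 1 / (Module.finrank ℚ K : ℝ)) * lnu y) ≤
        (C1 + C2 + C3) * Real.exp (-(1 + 1 / (Module.finrank ℚ K : ℝ)) * lnu y) :=
      mul_le_mul_of_nonneg_right (by linarith) hky.le
    linarith
  -- large norm: the Lipschitz regime
  have hdy : 0 < Real.exp (-(lnu y / (Module.finrank ℚ K : ℝ))) := Real.exp_pos _
  have hdx : 0 < Real.exp (-(lnu x / (Module.finrank ℚ K : ℝ))) := Real.exp_pos _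
  obtain ⟨t, ht⟩ : ∃ t : ℝ, t = Δ * Real.exp R *
      Real.exp (-(lnu y / (Module.finrank ℚ K : ℝ))) := ⟨_, rfl⟩
  have ht0 : 0 ≤ t := by rw [ht]; positivity
  have ht4 : 4 * (Module.finrank ℚ K : ℝ) * t ≤ 1 := by
    have h1 : Real.exp (lnu y / (Module.finrank ℚ K : ℝ)) *
        Real.exp (-(lnu y / (Module.finrank ℚ K : ℝ))) = 1 := by
      rw [← Real.exp_add, add_neg_cancel, Real.exp_zero]
    have h2 := mul_le_mul_of_nonneg_right hA hdy.le
    rw [h1] at h2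
    rw [ht]
    linarith
  have ht14 : 4 * t ≤ 1 := by
    have : 4 * t * 1 ≤ 4 * t * (Module.finrank ℚ K : ℝ) :=
      mul_le_mul_of_nonneg_left hn1 (by positivity)
    linarith
  have hta : t * Real.exp (lnu y / (Module.finrank ℚ K : ℝ) - R) = Δ := by
    rw [ht, mul_assoc, mul_assoc, ← Real.exp_add, ← Real.exp_add]
    have : R + (-(lnu y / (Module.finrank ℚ K : ℝ)) +
        (lnu y / (Module.finrank ℚ K : ℝ) - R)) = 0 := by ring
    rw [this, Real.exp_zero, mul_one]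
  have hw : ∀ w : InfinitePlace K, |w x - w y| ≤ t * w y := by
    intro w
    calc |w x - w y| ≤ w (x - y) := AbsoluteValue.abs_abv_sub_le_abv_sub w.1 x y
      _ ≤ Δ := hΔw w
      _ = t * Real.exp (lnu y / (Module.finrank ℚ K : ℝ) - R) := hta.symm
      _ ≤ t * w y := mul_le_mul_of_nonneg_left (exp_le_of_bal hy hb w) ht0
  obtain ⟨hL, hlam⟩ := lam_sub_le hx hy ht0 (by linarith) hw
  have hPhi := Phi_le_add hcov hx hy hlam
  have hL' := (abs_le.mp hL).2
  -- (f1)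
  have f1 : Real.exp (-s * lnu y) ≤
      Real.exp (-s * lnu x) * (1 + 8 * (Module.finrank ℚ K : ℝ) * t) := by
    have h1 : -s * lnu y ≤ -s * lnu x + 4 * (Module.finrank ℚ K : ℝ) * t := by
      have h2 : s * (lnu x - lnu y) ≤ s * (2 * (Module.finrank ℚ K : ℝ) * t) :=
        mul_le_mul_of_nonneg_left hL' (by linarith)
      have h3 : s * (2 * (Module.finrank ℚ K : ℝ) * t) ≤
          2 * (2 * (Module.finrank ℚ K : ℝ) * t) :=
        mul_le_mul_of_nonneg_right hs2 (by positivity)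
      linarith
    calc Real.exp (-s * lnu y)
        ≤ Real.exp (-s * lnu x + 4 * (Module.finrank ℚ K : ℝ) * t) := Real.exp_le_exp.mpr h1
      _ = Real.exp (-s * lnu x) * Real.exp (4 * (Module.finrank ℚ K : ℝ) * t) :=
          Real.exp_add _ _
      _ ≤ Real.exp (-s * lnu x) * (1 + 2 * (4 * (Module.finrank ℚ K : ℝ) * t)) :=
          mul_le_mul_of_nonneg_left (exp_le_two (by positivity) ht4) hex.le
      _ = Real.exp (-s * lnu x) * (1 + 8 * (Module.finrank ℚ K : ℝ) * t) := by ring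
  -- (f2)
  have f2 : Real.exp (-(lnu y / (Module.finrank ℚ K : ℝ))) ≤
      2 * Real.exp (-(lnu x / (Module.finrank ℚ K : ℝ))) := by
    have h1 : -(lnu y / (Module.finrank ℚ K : ℝ)) ≤
        -(lnu x / (Module.finrank ℚ K : ℝ)) + 2 * t := by
      have h2 : (lnu x - lnu y) / (Module.finrank ℚ K : ℝ) ≤ 2 * t := by
        rw [div_le_iff₀ hn0]; linarith
      rw [sub_div] at h2
      linarith
    calc Real.exp (-(lnu y / (Module.finrank ℚ K : ℝ)))
        ≤ Real.exp (-(lnu x / (Module.finrank ℚ K : ℝ)) + 2 * t) := Real.exp_le_exp.mpr h1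
      _ = Real.exp (-(lnu x / (Module.finrank ℚ K : ℝ))) * Real.exp (2 * t) := Real.exp_add _ _
      _ ≤ Real.exp (-(lnu x / (Module.finrank ℚ K : ℝ))) * 2 := by
          refine mul_le_mul_of_nonneg_left ?_ hdx.le
          have := exp_le_two (z := 2 * t) (by positivity) (by linarith)
          linarith
      _ = 2 * Real.exp (-(lnu x / (Module.finrank ℚ K : ℝ))) := mul_comm _ _
  -- (f3), (f4)
  have f34 : ∀ z : K, 0 ≤ lnu z → Real.exp (-(lnu z / (Module.finrank ℚ K : ℝ))) *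
      Real.exp (-s * lnu z) ≤ Real.exp (-(1 + 1 / (Module.finrank ℚ K : ℝ)) * lnu z) := by
    intro z hz
    rw [← Real.exp_add]
    apply Real.exp_le_exp.mpr
    have h1 : 1 * lnu z ≤ s * lnu z := mul_le_mul_of_nonneg_right hs1 hz
    have h2 : (1 + 1 / (Module.finrank ℚ K : ℝ)) * lnu z =
        lnu z + lnu z / (Module.finrank ℚ K : ℝ) := by ring
    linarith
  have f3 := f34 y hLy
  have f4 := f34 x hLx
  have hPb := Phi_le_bal R hx
  -- assemble
  have g1 : Phi R y * Real.exp (-s * lnu y) ≤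
      (Phi R x + (N0 K R + 1) * (4 * t)) * Real.exp (-s * lnu y) :=
    mul_le_mul_of_nonneg_right hPhi hey.le
  have g2 : Phi R x * Real.exp (-s * lnu y) ≤
      Phi R x * (Real.exp (-s * lnu x) * (1 + 8 * (Module.finrank ℚ K : ℝ) * t)) :=
    mul_le_mul_of_nonneg_left f1 hPx0
  -- term 2: Phi x * ex * 8 n t ≤ C2 * bal x * kx
  have g3 : Phi R x * Real.exp (-s * lnu x) * (8 * (Module.finrank ℚ K : ℝ) * t) ≤
      C2 * bal R x * Real.exp (-(1 + 1 / (Module.finrank ℚ K : ℝ)) * lnu x) := by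
    have h1 : 8 * (Module.finrank ℚ K : ℝ) * t ≤
        C2 * Real.exp (-(lnu x / (Module.finrank ℚ K : ℝ))) := by
      rw [ht, ← hC2']
      have := mul_le_mul_of_nonneg_left f2
        (by positivity : 0 ≤ 8 * (Module.finrank ℚ K : ℝ) * Δ * Real.exp R)
      linarith
    calc Phi R x * Real.exp (-s * lnu x) * (8 * (Module.finrank ℚ K : ℝ) * t)
        ≤ bal R x * Real.exp (-s * lnu x) *
            (C2 * Real.exp (-(lnu x / (Module.finrank ℚ K : ℝ)))) :=
          mul_le_mul (mul_le_mul_of_nonneg_right hPb hex.le) h1 (by positivity)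
            (by positivity)
      _ = C2 * bal R x * (Real.exp (-(lnu x / (Module.finrank ℚ K : ℝ))) *
            Real.exp (-s * lnu x)) := by ring
      _ ≤ C2 * bal R x * Real.exp (-(1 + 1 / (Module.finrank ℚ K : ℝ)) * lnu x) :=
          mul_le_mul_of_nonneg_left f4 (by positivity)
  -- term 3
  have g4 : (N0 K R + 1) * (4 * t) * Real.exp (-s * lnu y) ≤
      C3 * Real.exp (-(1 + 1 / (Module.finrank ℚ K : ℝ)) * lnu y) := by
    calc (N0 K R + 1) * (4 * t) * Real.exp (-s * lnu y)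
        = C3 * (Real.exp (-(lnu y / (Module.finrank ℚ K : ℝ))) * Real.exp (-s * lnu y)) := by
          rw [ht, ← hC3']; ring
      _ ≤ C3 * Real.exp (-(1 + 1 / (Module.finrank ℚ K : ℝ)) * lnu y) :=
          mul_le_mul_of_nonneg_left f3 hC3
  have g5 : C2 * bal R x * Real.exp (-(1 + 1 / (Module.finrank ℚ K : ℝ)) * lnu x) ≤
      (C1 + C2 + C3) * bal R x * Real.exp (-(1 + 1 / (Module.finrank ℚ K : ℝ)) * lnu x) := by
    have : C2 * bal R x ≤ (C1 + C2 + C3) * bal R x :=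
      mul_le_mul_of_nonneg_right (by linarith) hbx0
    exact mul_le_mul_of_nonneg_right this hkx.le
  have g6 : C3 * Real.exp (-(1 + 1 / (Module.finrank ℚ K : ℝ)) * lnu y) ≤
      (C1 + C2 + C3) * Real.exp (-(1 + 1 / (Module.finrank ℚ K : ℝ)) * lnu y) :=
    mul_le_mul_of_nonneg_right (by linarith) hky.le
  have g7 : (Phi R x + (N0 K R + 1) * (4 * t)) * Real.exp (-s * lnu y) =
      Phi R x * Real.exp (-s * lnu y) + (N0 K R + 1) * (4 * t) * Real.exp (-s * lnu y) := by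
    ring
  have g8 : Phi R x * (Real.exp (-s * lnu x) * (1 + 8 * (Module.finrank ℚ K : ℝ) * t)) =
      Phi R x * Real.exp (-s * lnu x) +
        Phi R x * Real.exp (-s * lnu x) * (8 * (Module.finrank ℚ K : ℝ) * t) := by ring
  linarith

/-! ### The interface on `𝓞 K` -/

theorem nu_coe (z : 𝓞 K) : nu (z : K) = (Ideal.absNorm (Ideal.span {z}) : ℝ) := by
  rw [nu_eq_abs_norm, Ideal.absNorm_span_singleton, ← Algebra.coe_norm_int, Nat.cast_natAbs]
  push_cast
  rfl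

theorem one_le_absNorm_span {z : 𝓞 K} (hz : z ≠ 0) :
    (1 : ℝ) ≤ (Ideal.absNorm (Ideal.span {z}) : ℝ) := by
  have h : Ideal.absNorm (Ideal.span {z}) ≠ 0 := by
    rw [Ne, Ideal.absNorm_eq_zero_iff, Ideal.span_singleton_eq_bot]
    exact hz
  exact_mod_cast Nat.one_le_iff_ne_zero.mpr h

theorem coe_ne_zero_of_ne_zero {z : 𝓞 K} (hz : z ≠ 0) : (z : K) ≠ 0 :=
  RingOfIntegers.coe_ne_zero_iff.mpr hz

theorem lnu_coe_nonneg {z : 𝓞 K} (hz : z ≠ 0) : 0 ≤ lnu (z : K) := by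
  unfold lnu
  rw [nu_coe]
  exact Real.log_nonneg (one_le_absNorm_span hz)

theorem rpow_eq_exp {z : 𝓞 K} (hz : z ≠ 0) (s : ℝ) :
    (Ideal.absNorm (Ideal.span {z}) : ℝ) ^ (-s) = Real.exp (-s * lnu (z : K)) := by
  rw [← nu_coe, Real.rpow_def_of_pos (nu_pos (coe_ne_zero_of_ne_zero hz)), mul_comm]
  rfl

theorem tsum_bal_le (R : ℝ) {x : K} (hx : x ≠ 0) :
    ∑' u : (𝓞 K)ˣ, ENNReal.ofReal (bal R (((u : 𝓞 K) : K) * x)) ≤ ENNReal.ofReal (N0 K R) := by
  have hfin := Sset_finite R hx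
  have h1 : ∑' u : (𝓞 K)ˣ, ENNReal.ofReal (bal R (((u : 𝓞 K) : K) * x)) =
      ∑ u ∈ hfin.toFinset, ENNReal.ofReal (bal R (((u : 𝓞 K) : K) * x)) := by
    refine tsum_eq_sum fun u hu => ?_
    have hu' : ¬ ‖lam (((u : 𝓞 K) : K) * x)‖ < R := by simpa [Sset] using hu
    unfold bal
    rw [if_neg hu', ENNReal.ofReal_zero]
  rw [h1]
  calc ∑ u ∈ hfin.toFinset, ENNReal.ofReal (bal R (((u : 𝓞 K) : K) * x))
      ≤ ∑ u ∈ hfin.toFinset, (1 : ENNReal) := by
        refine Finset.sum_le_sum fun u _ => ?_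
        rw [← ENNReal.ofReal_one]
        exact ENNReal.ofReal_le_ofReal (bal_le_one _ _)
    _ = ((hfin.toFinset.card : ℕ) : ENNReal) := by
        rw [Finset.sum_const, nsmul_eq_mul, mul_one]
    _ = ENNReal.ofReal ((hfin.toFinset.card : ℕ) : ℝ) := (ENNReal.ofReal_natCast _).symm
    _ ≤ ENNReal.ofReal (N0 K R) := ENNReal.ofReal_le_ofReal (card_toFinset_Sset_le R hx)

/-- **The unit partition of unity** on `𝓞 K ∖ {0}`, with its one-sided Lipschitz estimate. -/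
theorem exists_partition (K : Type*) [Field K] [NumberField K] :
    ∃ (Φ β : 𝓞 K → ℝ) (M : ℝ),
      (∀ z, 0 ≤ Φ z) ∧ (∀ z, Φ z ≤ 1) ∧ (∀ z, 0 ≤ β z) ∧ 0 ≤ M ∧
      (∀ z : 𝓞 K, z ≠ 0 → HasSum (fun u : (𝓞 K)ˣ => Φ ((u : 𝓞 K) * z)) 1) ∧
      (∀ z : 𝓞 K, z ≠ 0 →
        ∑' u : (𝓞 K)ˣ, ENNReal.ofReal (β ((u : 𝓞 K) * z)) ≤ ENNReal.ofReal M) ∧
      (∀ Δ : ℝ, ∃ C : ℝ, 0 ≤ C ∧ ∀ s : ℝ, 1 ≤ s → s ≤ 2 → ∀ x y : 𝓞 K, x ≠ 0 → y ≠ 0 →
        (∀ w : InfinitePlace K, w ((x : K) - (y : K)) ≤ Δ) →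
        Φ y * (Ideal.absNorm (Ideal.span {y}) : ℝ) ^ (-s) ≤
          Φ x * (Ideal.absNorm (Ideal.span {x}) : ℝ) ^ (-s)
          + C * β x * (Ideal.absNorm (Ideal.span {x}) : ℝ) ^
              (-(1 + 1 / (Module.finrank ℚ K : ℝ)))
          + C * β y * (Ideal.absNorm (Ideal.span {y}) : ℝ) ^
              (-(1 + 1 / (Module.finrank ℚ K : ℝ)))) := by
  classical
  obtain ⟨R₀, hR₀, hcov₀⟩ := exists_covering_radius K
  obtain ⟨R, hR⟩ : ∃ R : ℝ, R = R₀ + 1 := ⟨_, rfl⟩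
  have hcov : ∀ x : K, x ≠ 0 → ∃ u : (𝓞 K)ˣ, ‖lam (((u : 𝓞 K) : K) * x)‖ ≤ R - 1 := by
    intro x hx
    obtain ⟨u, hu⟩ := hcov₀ x hx
    exact ⟨u, by rw [hR]; linarith⟩
  refine ⟨fun z => if z = 0 then 0 else Phi R (z : K), fun z => bal R (z : K), N0 K R,
    ?_, ?_, fun z => bal_nonneg _ _, N0_nonneg _, ?_, ?_, ?_⟩
  · intro z
    show 0 ≤ (if z = 0 then 0 else Phi R (z : K))
    split_ifs
    · exact le_rfl
    · exact Phi_nonneg _ _
  · intro z
    show (if z = 0 then 0 else Phi R (z : K)) ≤ 1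
    split_ifs with h
    · exact zero_le_one
    · exact Phi_le_one _ (coe_ne_zero_of_ne_zero h)
  · intro z hz
    have h := hasSum_Phi hcov (coe_ne_zero_of_ne_zero hz)
    have h2 : (fun u : (𝓞 K)ˣ => (if (u : 𝓞 K) * z = 0 then 0 else
        Phi R ((((u : 𝓞 K) * z : 𝓞 K)) : K))) =
        fun u : (𝓞 K)ˣ => Phi R (((u : 𝓞 K) : K) * (z : K)) := by
      funext u
      rw [if_neg (mul_ne_zero (Units.ne_zero u) hz)]
      simp only [RingOfIntegers.coe_eq_algebraMap, map_mul]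
    show HasSum (fun u : (𝓞 K)ˣ => (if (u : 𝓞 K) * z = 0 then 0 else
        Phi R ((((u : 𝓞 K) * z : 𝓞 K)) : K))) 1
    rw [h2]
    exact h
  · intro z hz
    have h := tsum_bal_le R (coe_ne_zero_of_ne_zero hz)
    have h2 : (fun u : (𝓞 K)ˣ => ENNReal.ofReal (bal R ((((u : 𝓞 K) * z : 𝓞 K)) : K))) =
        fun u : (𝓞 K)ˣ => ENNReal.ofReal (bal R (((u : 𝓞 K) : K) * (z : K))) := by
      funext u
      simp only [RingOfIntegers.coe_eq_algebraMap, map_mul]
    show ∑' u : (𝓞 K)ˣ, ENNReal.ofReal (bal R ((((u : 𝓞 K) * z : 𝓞 K)) : K)) ≤ _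
    rw [h2]
    exact h
  · intro Δ
    obtain ⟨C, hC0, hC⟩ := key_estimate hcov (max Δ 0) (le_max_right _ _)
    refine ⟨C, hC0, fun s hs1 hs2 x y hx hy hΔ => ?_⟩
    have h := hC s hs1 hs2 (x : K) (y : K) (coe_ne_zero_of_ne_zero hx)
      (coe_ne_zero_of_ne_zero hy) (lnu_coe_nonneg hx) (lnu_coe_nonneg hy)
      (fun w => (hΔ w).trans (le_max_left _ _))
    show (if y = 0 then 0 else Phi R (y : K)) * _ ≤ (if x = 0 then 0 else Phi R (x : K)) * _
      + _ + _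
    rw [if_neg hx, if_neg hy, rpow_eq_exp hx, rpow_eq_exp hy, rpow_eq_exp hx, rpow_eq_exp hy]
    exact h

end Fermat.Agent.Lib.NestedZeta
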