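/-
S14 [ClassZeta] route (d) (helper32), layer 3: comparison of the partial zeta functions of two
ideal classes through nested ideals `J' = J * I₀ ⊆ J` and the unit partition of unity.
No measure theory: the main terms cancel by the index count `[J : J'] = N(J') / N(J)`.
-/
import Mathlib
import Fermat.Agent.Lib.NestedZeta.Orbit
import Fermat.Agent.Lib.NestedZeta.Unity

set_option autoImplicit false
set_option linter.unusedSectionVars false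
set_option linter.unusedVariables false

noncomputable section

namespace Fermat.Agent.Lib.NestedZeta

open NumberField Ideal nonZeroDivisors InfinitePlace
open scoped ENNReal Classical

variable {K : Type*} [Field K] [NumberField K]

/-! ### Coset representatives of `J / J'` -/

theorem relIndex_mul_absNorm {J J' : Ideal (𝓞 K)} (h : J' ≤ J) :
    J'.toAddSubgroup.relIndex J.toAddSubgroup * absNorm J = absNorm J' := by
  rw [Ideal.absNorm_apply, Ideal.absNorm_apply]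
  exact AddSubgroup.relIndex_mul_index ((Submodule.toAddSubgroup_le _ _).mpr h)

theorem exists_coset_reps {J J' : Ideal (𝓞 K)} (hle : J' ≤ J) (hJ' : J' ≠ ⊥) :
    ∃ (m : ℕ) (rep : Fin m → 𝓞 K), m * absNorm J = absNorm J' ∧ (∀ i, rep i ∈ J) ∧
      ∀ h ∈ J, ∃ i, h - rep i ∈ J' := by
  have hm := relIndex_mul_absNorm hle
  have hm0 : J'.toAddSubgroup.relIndex J.toAddSubgroup ≠ 0 := by
    intro h0
    rw [h0, zero_mul] at hm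
    exact hJ' (Ideal.absNorm_eq_zero_iff.mp hm.symm)
  have hfin : Finite (↥J.toAddSubgroup ⧸ J'.toAddSubgroup.addSubgroupOf J.toAddSubgroup) :=
    Nat.finite_of_card_ne_zero hm0
  let e := Finite.equivFin (↥J.toAddSubgroup ⧸ J'.toAddSubgroup.addSubgroupOf J.toAddSubgroup)
  refine ⟨_, fun i => ((Quotient.out (e.symm i) : ↥J.toAddSubgroup) : 𝓞 K), hm,
    fun i => (Quotient.out (e.symm i) : ↥J.toAddSubgroup).2, fun h hh => ?_⟩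
  let h' : ↥J.toAddSubgroup := ⟨h, hh⟩
  let q : ↥J.toAddSubgroup ⧸ J'.toAddSubgroup.addSubgroupOf J.toAddSubgroup :=
    QuotientAddGroup.mk h'
  refine ⟨e q, ?_⟩
  have h1 : (QuotientAddGroup.mk (Quotient.out q) :
      ↥J.toAddSubgroup ⧸ J'.toAddSubgroup.addSubgroupOf J.toAddSubgroup) = QuotientAddGroup.mk h' :=
    QuotientAddGroup.out_eq' q
  have h2 := QuotientAddGroup.eq.mp h1
  rw [AddSubgroup.mem_addSubgroupOf] at h2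
  have h3 : -((Quotient.out q : ↥J.toAddSubgroup) : 𝓞 K) + h ∈ J' := h2
  show h - ((Quotient.out (e.symm (e q)) : ↥J.toAddSubgroup) : 𝓞 K) ∈ J'
  rw [Equiv.symm_apply_apply]
  have h4 : h - ((Quotient.out q : ↥J.toAddSubgroup) : 𝓞 K) =
      -((Quotient.out q : ↥J.toAddSubgroup) : 𝓞 K) + h := by ring
  rw [h4]
  exact h3

theorem tsum_le_sum_tsum_shift {J J' : Ideal (𝓞 K)} (hle : J' ≤ J) {m : ℕ} (rep : Fin m → 𝓞 K)
    (hrep : ∀ i, rep i ∈ J) (hcov : ∀ h ∈ J, ∃ i, h - rep i ∈ J') (G : 𝓞 K → ℝ≥0∞) :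
    ∑' h : ↥J, G h ≤ ∑ i : Fin m, ∑' σ : ↥J', G (rep i + σ) := by
  let g : Fin m × ↥J' → ↥J := fun p => ⟨rep p.1 + p.2, J.add_mem (hrep _) (hle p.2.2)⟩
  have hsurj : Function.Surjective g := by
    rintro ⟨h, hh⟩
    obtain ⟨i, hi⟩ := hcov h hh
    refine ⟨(i, ⟨h - rep i, hi⟩), ?_⟩
    apply Subtype.ext
    show rep i + (h - rep i) = h
    ring
  have h1 := ENNReal.tsum_le_tsum_comp_of_surjective hsurj (fun h : ↥J => G h)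
  refine h1.trans_eq ?_
  rw [ENNReal.tsum_prod', tsum_fintype]

/-! ### The weighted lattice sums -/

/-- the summand `Φ(z) N(z)^{-s}`. -/
def Fterm (Φ : 𝓞 K → ℝ) (s : ℝ) (z : 𝓞 K) : ℝ≥0∞ :=
  ENNReal.ofReal (Φ z) * ENNReal.ofReal ((absNorm (Ideal.span {z}) : ℝ) ^ (-s))

/-- the error weight `C β(z) N(z)^{-(1 + 1/n)}`. -/
def errW (β : 𝓞 K → ℝ) (C : ℝ) (z : 𝓞 K) : ℝ≥0∞ :=
  ENNReal.ofReal (C * β z) *
    ENNReal.ofReal ((absNorm (Ideal.span {z}) : ℝ) ^ (-(1 + 1 / (Module.finrank ℚ K : ℝ))))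

/-- the error weight, with value `1` at `0`. -/
def errAll (β : 𝓞 K → ℝ) (C : ℝ) (z : 𝓞 K) : ℝ≥0∞ := if z = 0 then 1 else errW β C z

/-- the class sum in `ℝ≥0∞`. -/
def clsSum (s : ℝ) (J : (Ideal (𝓞 K))⁰) : ℝ≥0∞ :=
  ∑' I : ClassInv J,
    ENNReal.ofReal ((absNorm ((I.1 : (Ideal (𝓞 K))⁰) : Ideal (𝓞 K)) : ℝ) ^ (-s))

theorem Fterm_zero (Φ : 𝓞 K → ℝ) {s : ℝ} (hs : s ≠ 0) : Fterm Φ s 0 = 0 := by
  unfold Fterm
  have h : (Ideal.span {(0 : 𝓞 K)} : Ideal (𝓞 K)) = ⊥ := Ideal.span_singleton_eq_bot.mpr rfl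
  rw [h, Ideal.absNorm_bot, Nat.cast_zero, Real.zero_rpow (neg_ne_zero.mpr hs),
    ENNReal.ofReal_zero, mul_zero]

theorem Fterm_le_one (Φ : 𝓞 K → ℝ) (hΦ1 : ∀ z, Φ z ≤ 1) {s : ℝ} (hs : 0 ≤ s) {z : 𝓞 K}
    (hz : z ≠ 0) : Fterm Φ s z ≤ 1 := by
  unfold Fterm
  have h1 : ENNReal.ofReal (Φ z) ≤ 1 := by
    rw [← ENNReal.ofReal_one]
    exact ENNReal.ofReal_le_ofReal (hΦ1 z)
  have h2 : ENNReal.ofReal ((absNorm (Ideal.span {z}) : ℝ) ^ (-s)) ≤ 1 := by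
    rw [← ENNReal.ofReal_one]
    exact ENNReal.ofReal_le_ofReal
      (Real.rpow_le_one_of_one_le_of_nonpos (one_le_absNorm_span hz) (by linarith))
  calc _ ≤ (1 : ℝ≥0∞) * 1 := mul_le_mul' h1 h2
    _ = 1 := one_mul 1

/-- (A) the lattice sum of `J` is `N(J)^{-s}` times the class sum. -/
theorem tsum_Fterm_eq (Φ : 𝓞 K → ℝ) (hΦ0 : ∀ z, 0 ≤ Φ z)
    (hΦ : ∀ z : 𝓞 K, z ≠ 0 → HasSum (fun u : (𝓞 K)ˣ => Φ ((u : 𝓞 K) * z)) 1)
    (s : ℝ) (J : (Ideal (𝓞 K))⁰) :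
    ∑' γ : NzMem (J : Ideal (𝓞 K)), Fterm Φ s γ =
      ENNReal.ofReal ((absNorm (J : Ideal (𝓞 K)) : ℝ) ^ (-s)) * clsSum s J := by
  have h := tsum_nzMem_of_tsum_eq_one J (fun z => ENNReal.ofReal (Φ z))
    (fun k => ENNReal.ofReal ((k : ℝ) ^ (-s))) (by
      intro x hx
      rw [← ENNReal.ofReal_tsum_of_nonneg (fun u => hΦ0 _) (hΦ x hx).summable,
        (hΦ x hx).tsum_eq, ENNReal.ofReal_one])
  unfold clsSum
  rw [← ENNReal.tsum_mul_left]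
  refine h.trans (tsum_congr fun I => ?_)
  rw [Nat.cast_mul, Real.mul_rpow (Nat.cast_nonneg _) (Nat.cast_nonneg _),
    ENNReal.ofReal_mul (Real.rpow_nonneg (Nat.cast_nonneg _) _)]

/-- the sum over all of `J'` is the sum over its nonzero elements. -/
theorem tsum_mem_le_tsum_nzMem (J' : Ideal (𝓞 K)) (F : 𝓞 K → ℝ≥0∞) (hF : F 0 = 0) :
    ∑' σ : ↥J', F σ ≤ ∑' γ : NzMem J', F γ := by
  have h1 : ∑' σ : ↥J', F σ = ∑' z : 𝓞 K, (J' : Set (𝓞 K)).indicator F z :=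
    tsum_subtype (J' : Set (𝓞 K)) F
  have h2 : ∑' γ : NzMem J', F γ =
      ∑' z : 𝓞 K, ({z : 𝓞 K | z ∈ J' ∧ z ≠ 0} : Set (𝓞 K)).indicator F z :=
    tsum_subtype ({z : 𝓞 K | z ∈ J' ∧ z ≠ 0} : Set (𝓞 K)) F
  rw [h1, h2]
  refine ENNReal.tsum_le_tsum fun z => ?_
  by_cases hz : z = 0
  · rw [hz]
    simp [Set.indicator, hF]
  · by_cases hzJ : z ∈ J'
    · rw [Set.indicator_of_mem (show z ∈ (J' : Set (𝓞 K)) from hzJ),
        Set.indicator_of_mem (show z ∈ ({z : 𝓞 K | z ∈ J' ∧ z ≠ 0} : Set (𝓞 K)) from ⟨hzJ, hz⟩)]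
    · rw [Set.indicator_of_notMem (show z ∉ (J' : Set (𝓞 K)) from hzJ)]
      exact zero_le

/-- (B) the termwise one-sided estimate under a bounded shift. -/
theorem Fterm_shift_le (Φ β : 𝓞 K → ℝ) (hΦ0 : ∀ z, 0 ≤ Φ z) (hΦ1 : ∀ z, Φ z ≤ 1)
    (hβ0 : ∀ z, 0 ≤ β z) {Δ C : ℝ} (hC0 : 0 ≤ C)
    (hlip : ∀ s : ℝ, 1 ≤ s → s ≤ 2 → ∀ x y : 𝓞 K, x ≠ 0 → y ≠ 0 →
        (∀ w : InfinitePlace K, w ((x : K) - (y : K)) ≤ Δ) →
        Φ y * (absNorm (Ideal.span {y}) : ℝ) ^ (-s) ≤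
          Φ x * (absNorm (Ideal.span {x}) : ℝ) ^ (-s)
          + C * β x * (absNorm (Ideal.span {x}) : ℝ) ^
              (-(1 + 1 / (Module.finrank ℚ K : ℝ)))
          + C * β y * (absNorm (Ideal.span {y}) : ℝ) ^
              (-(1 + 1 / (Module.finrank ℚ K : ℝ))))
    {s : ℝ} (hs1 : 1 ≤ s) (hs2 : s ≤ 2) {δ : 𝓞 K}
    (hδ : ∀ w : InfinitePlace K, w (δ : K) ≤ Δ) (x : 𝓞 K) :
    Fterm Φ s (δ + x) ≤ Fterm Φ s x + errAll β C x + errAll β C (δ + x) := by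
  by_cases hy : δ + x = 0
  · rw [hy, Fterm_zero Φ (by linarith)]
    exact zero_le
  by_cases hx : x = 0
  · have h1 : errAll β C x = 1 := by unfold errAll; rw [if_pos hx]
    rw [h1]
    calc Fterm Φ s (δ + x) ≤ 1 := Fterm_le_one Φ hΦ1 (by linarith) hy
      _ ≤ Fterm Φ s x + 1 := le_add_self
      _ ≤ Fterm Φ s x + 1 + errAll β C (δ + x) := le_self_add
  · have hw : ∀ w : InfinitePlace K, w ((x : K) - ((δ + x : 𝓞 K) : K)) ≤ Δ := by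
      intro w
      have h1 : (x : K) - ((δ + x : 𝓞 K) : K) = -(δ : K) := by
        simp only [RingOfIntegers.coe_eq_algebraMap, map_add]
        ring
      rw [h1]
      exact (AbsoluteValue.map_neg w.1 _).le.trans (hδ w)
    have h := hlip s hs1 hs2 x (δ + x) hx hy hw
    have e1 : errAll β C x = errW β C x := by unfold errAll; rw [if_neg hx]
    have e2 : errAll β C (δ + x) = errW β C (δ + x) := by unfold errAll; rw [if_neg hy]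
    rw [e1, e2]
    unfold Fterm errW
    rw [← ENNReal.ofReal_mul (hΦ0 _), ← ENNReal.ofReal_mul (hΦ0 _),
      ← ENNReal.ofReal_mul (mul_nonneg hC0 (hβ0 _)),
      ← ENNReal.ofReal_mul (mul_nonneg hC0 (hβ0 _)),
      ← ENNReal.ofReal_add (mul_nonneg (hΦ0 _) (Real.rpow_nonneg (Nat.cast_nonneg _) _))
        (mul_nonneg (mul_nonneg hC0 (hβ0 _)) (Real.rpow_nonneg (Nat.cast_nonneg _) _)),
      ← ENNReal.ofReal_add (add_nonneg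
          (mul_nonneg (hΦ0 _) (Real.rpow_nonneg (Nat.cast_nonneg _) _))
          (mul_nonneg (mul_nonneg hC0 (hβ0 _)) (Real.rpow_nonneg (Nat.cast_nonneg _) _)))
        (mul_nonneg (mul_nonneg hC0 (hβ0 _)) (Real.rpow_nonneg (Nat.cast_nonneg _) _))]
    exact ENNReal.ofReal_le_ofReal h

/-- the unit ideal as a nonzero ideal. -/
def topJ (K : Type*) [Field K] [NumberField K] : (Ideal (𝓞 K))⁰ :=
  ⟨⊤, mem_nonZeroDivisors_iff_ne_zero.mpr (by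
    rw [Ne, Ideal.zero_eq_bot]
    exact top_ne_bot)⟩

/-- (C) the total error is finite. -/
theorem tsum_errAll_lt_top (β : 𝓞 K → ℝ) (hβ0 : ∀ z, 0 ≤ β z) {M : ℝ}
    (hβ : ∀ z : 𝓞 K, z ≠ 0 →
      ∑' u : (𝓞 K)ˣ, ENNReal.ofReal (β ((u : 𝓞 K) * z)) ≤ ENNReal.ofReal M)
    {C : ℝ} (hC0 : 0 ≤ C)
    (hsum : Summable fun I : (Ideal (𝓞 K))⁰ =>
      (absNorm (I : Ideal (𝓞 K)) : ℝ) ^ (-(1 + 1 / (Module.finrank ℚ K : ℝ)))) :
    ∑' z : 𝓞 K, errAll β C z < ⊤ := by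
  rw [ENNReal.tsum_eq_add_tsum_ite (0 : 𝓞 K)]
  have h0 : errAll β C (0 : 𝓞 K) = 1 := by unfold errAll; rw [if_pos rfl]
  rw [h0]
  have h1 : ∑' z : 𝓞 K, (if z = 0 then 0 else errAll β C z) ≤
      ∑' γ : NzMem ((topJ K : (Ideal (𝓞 K))⁰) : Ideal (𝓞 K)), errW β C γ := by
    have h2 : ∑' γ : NzMem ((topJ K : (Ideal (𝓞 K))⁰) : Ideal (𝓞 K)), errW β C γ =
        ∑' z : 𝓞 K, ({z : 𝓞 K | z ∈ ((topJ K : (Ideal (𝓞 K))⁰) : Ideal (𝓞 K)) ∧ z ≠ 0} :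
          Set (𝓞 K)).indicator (errW β C) z :=
      tsum_subtype _ (errW β C)
    rw [h2]
    refine ENNReal.tsum_le_tsum fun z => ?_
    by_cases hz : z = 0
    · rw [if_pos hz]
      exact zero_le
    · rw [if_neg hz, Set.indicator_of_mem
        (show z ∈ ({z : 𝓞 K | z ∈ ((topJ K : (Ideal (𝓞 K))⁰) : Ideal (𝓞 K)) ∧ z ≠ 0} :
          Set (𝓞 K)) from ⟨Submodule.mem_top, hz⟩)]
      unfold errAll
      rw [if_neg hz]
  have h3 := tsum_nzMem_le_of_tsum_le (topJ K) (fun z => ENNReal.ofReal (C * β z))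
    (fun k => ENNReal.ofReal ((k : ℝ) ^ (-(1 + 1 / (Module.finrank ℚ K : ℝ)))))
    (ENNReal.ofReal C * ENNReal.ofReal M) (by
      intro x hx
      have h4 : ∀ u : (𝓞 K)ˣ, ENNReal.ofReal (C * β ((u : 𝓞 K) * x)) =
          ENNReal.ofReal C * ENNReal.ofReal (β ((u : 𝓞 K) * x)) := fun u => ENNReal.ofReal_mul hC0
      rw [tsum_congr h4, ENNReal.tsum_mul_left]
      exact mul_le_mul_right (hβ x hx) _)
  have h4 : ∑' I : ClassInv (topJ K), ENNReal.ofReal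
      (((absNorm ((topJ K : (Ideal (𝓞 K))⁰) : Ideal (𝓞 K)) *
        absNorm ((I.1 : (Ideal (𝓞 K))⁰) : Ideal (𝓞 K)) : ℕ) : ℝ) ^
          (-(1 + 1 / (Module.finrank ℚ K : ℝ)))) ≤
      ENNReal.ofReal (∑' I : (Ideal (𝓞 K))⁰,
        (absNorm (I : Ideal (𝓞 K)) : ℝ) ^ (-(1 + 1 / (Module.finrank ℚ K : ℝ)))) := by
    rw [ENNReal.ofReal_tsum_of_nonneg (fun I => Real.rpow_nonneg (Nat.cast_nonneg _) _) hsum]
    have h5 := ENNReal.tsum_comp_le_tsum_of_injective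
      (Subtype.val_injective
        (p := fun I : (Ideal (𝓞 K))⁰ => ClassGroup.mk0 I = (ClassGroup.mk0 (topJ K))⁻¹))
      (fun I : (Ideal (𝓞 K))⁰ => ENNReal.ofReal
        ((absNorm (I : Ideal (𝓞 K)) : ℝ) ^ (-(1 + 1 / (Module.finrank ℚ K : ℝ)))))
    refine le_trans (le_of_eq (tsum_congr fun I => ?_)) h5
    have h6 : absNorm ((topJ K : (Ideal (𝓞 K))⁰) : Ideal (𝓞 K)) = 1 := Ideal.absNorm_top
    rw [h6, one_mul]
  calc 1 + ∑' z : 𝓞 K, (if z = 0 then 0 else errAll β C z)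
      ≤ 1 + ENNReal.ofReal C * ENNReal.ofReal M * ENNReal.ofReal (∑' I : (Ideal (𝓞 K))⁰,
        (absNorm (I : Ideal (𝓞 K)) : ℝ) ^ (-(1 + 1 / (Module.finrank ℚ K : ℝ)))) :=
        add_le_add le_rfl (h1.trans (h3.trans (mul_le_mul_right h4 _)))
    _ < ⊤ := ENNReal.add_lt_top.mpr ⟨ENNReal.one_lt_top,
        ENNReal.mul_lt_top (ENNReal.mul_lt_top ENNReal.ofReal_lt_top ENNReal.ofReal_lt_top)
          ENNReal.ofReal_lt_top⟩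

/-- (D) the nested-ideal comparison, in `ℝ≥0∞`. -/
theorem nested_compare (J I₀ : (Ideal (𝓞 K))⁰)
    (hsum : Summable fun I : (Ideal (𝓞 K))⁰ =>
      (absNorm (I : Ideal (𝓞 K)) : ℝ) ^ (-(1 + 1 / (Module.finrank ℚ K : ℝ)))) :
    ∃ (m : ℕ) (Γ : ℝ≥0∞),
      m * absNorm (J : Ideal (𝓞 K)) = absNorm ((J * I₀ : (Ideal (𝓞 K))⁰) : Ideal (𝓞 K)) ∧
      Γ < ⊤ ∧ ∀ s : ℝ, 1 ≤ s → s ≤ 2 →
        ENNReal.ofReal ((absNorm (J : Ideal (𝓞 K)) : ℝ) ^ (-s)) * clsSum s J ≤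
          (m : ℝ≥0∞) * (ENNReal.ofReal
            ((absNorm ((J * I₀ : (Ideal (𝓞 K))⁰) : Ideal (𝓞 K)) : ℝ) ^ (-s)) *
              clsSum s (J * I₀) + (Γ + Γ)) := by
  obtain ⟨Φ, β, M, hΦ0, hΦ1, hβ0, hM0, hΦ, hβ, hlip⟩ := exists_partition K
  have hle : ((J * I₀ : (Ideal (𝓞 K))⁰) : Ideal (𝓞 K)) ≤ (J : Ideal (𝓞 K)) := by
    rw [Submonoid.coe_mul]
    exact Ideal.mul_le_left
  have hJ' : ((J * I₀ : (Ideal (𝓞 K))⁰) : Ideal (𝓞 K)) ≠ ⊥ := coe_ne_bot (J * I₀)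
  obtain ⟨m, rep, hm, hrep, hcov⟩ := exists_coset_reps hle hJ'
  obtain ⟨Δ, hΔ⟩ : ∃ Δ : ℝ, ∀ (i : Fin m) (w : InfinitePlace K), w (rep i : K) ≤ Δ := by
    refine ⟨∑ i : Fin m, ∑ w : InfinitePlace K, w (rep i : K), fun i w => ?_⟩
    have h1 : w (rep i : K) ≤ ∑ w : InfinitePlace K, w (rep i : K) :=
      Finset.single_le_sum (f := fun w : InfinitePlace K => w (rep i : K))
        (fun w _ => apply_nonneg w _) (Finset.mem_univ w)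
    have h2 : ∑ w : InfinitePlace K, w (rep i : K) ≤
        ∑ i : Fin m, ∑ w : InfinitePlace K, w (rep i : K) :=
      Finset.single_le_sum (f := fun i : Fin m => ∑ w : InfinitePlace K, w (rep i : K))
        (fun i _ => Finset.sum_nonneg fun w _ => apply_nonneg w _) (Finset.mem_univ i)
    exact h1.trans h2
  obtain ⟨C, hC0, hC⟩ := hlip Δ
  have hΓ := tsum_errAll_lt_top β hβ0 hβ hC0 hsum
  refine ⟨m, ∑' z : 𝓞 K, errAll β C z, hm, hΓ, fun s hs1 hs2 => ?_⟩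
  rw [← tsum_Fterm_eq Φ hΦ0 hΦ s J, ← tsum_Fterm_eq Φ hΦ0 hΦ s (J * I₀)]
  have hinj : Function.Injective
      (fun γ : NzMem (J : Ideal (𝓞 K)) => (⟨γ.1, γ.2.1⟩ : ↥(J : Ideal (𝓞 K)))) := by
    intro a b hab
    have h1 : (a : 𝓞 K) = (b : 𝓞 K) :=
      congrArg (fun h : ↥(J : Ideal (𝓞 K)) => (h : 𝓞 K)) hab
    exact Subtype.ext h1
  have step1 : ∑' γ : NzMem (J : Ideal (𝓞 K)), Fterm Φ s γ ≤
      ∑' h : ↥(J : Ideal (𝓞 K)), Fterm Φ s h :=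
    ENNReal.tsum_comp_le_tsum_of_injective hinj (fun h : ↥(J : Ideal (𝓞 K)) => Fterm Φ s h)
  have step2 := tsum_le_sum_tsum_shift hle rep hrep hcov (Fterm Φ s)
  have step3 : ∀ i : Fin m,
      ∑' σ : ↥((J * I₀ : (Ideal (𝓞 K))⁰) : Ideal (𝓞 K)), Fterm Φ s (rep i + σ) ≤
      ∑' γ : NzMem ((J * I₀ : (Ideal (𝓞 K))⁰) : Ideal (𝓞 K)), Fterm Φ s γ +
        (∑' z : 𝓞 K, errAll β C z + ∑' z : 𝓞 K, errAll β C z) := by
    intro i
    have t1 : ∑' σ : ↥((J * I₀ : (Ideal (𝓞 K))⁰) : Ideal (𝓞 K)), Fterm Φ s (rep i + σ) ≤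
        ∑' σ : ↥((J * I₀ : (Ideal (𝓞 K))⁰) : Ideal (𝓞 K)),
          (Fterm Φ s σ + errAll β C σ + errAll β C (rep i + σ)) :=
      ENNReal.tsum_le_tsum fun σ =>
        Fterm_shift_le Φ β hΦ0 hΦ1 hβ0 hC0 hC hs1 hs2 (hΔ i) σ
    have t2 : ∑' σ : ↥((J * I₀ : (Ideal (𝓞 K))⁰) : Ideal (𝓞 K)), Fterm Φ s σ ≤
        ∑' γ : NzMem ((J * I₀ : (Ideal (𝓞 K))⁰) : Ideal (𝓞 K)), Fterm Φ s γ :=
      tsum_mem_le_tsum_nzMem _ (Fterm Φ s) (Fterm_zero Φ (by linarith))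
    have t3 : ∑' σ : ↥((J * I₀ : (Ideal (𝓞 K))⁰) : Ideal (𝓞 K)), errAll β C σ ≤
        ∑' z : 𝓞 K, errAll β C z :=
      ENNReal.tsum_comp_le_tsum_of_injective Subtype.val_injective (errAll β C)
    have hinj2 : Function.Injective
        (fun σ : ↥((J * I₀ : (Ideal (𝓞 K))⁰) : Ideal (𝓞 K)) => rep i + (σ : 𝓞 K)) := by
      intro a b hab
      exact Subtype.ext (add_left_cancel hab)
    have t4 : ∑' σ : ↥((J * I₀ : (Ideal (𝓞 K))⁰) : Ideal (𝓞 K)), errAll β C (rep i + σ) ≤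
        ∑' z : 𝓞 K, errAll β C z :=
      ENNReal.tsum_comp_le_tsum_of_injective hinj2 (errAll β C)
    refine t1.trans ?_
    rw [ENNReal.tsum_add, ENNReal.tsum_add, add_assoc]
    exact add_le_add t2 (add_le_add t3 t4)
  calc ∑' γ : NzMem (J : Ideal (𝓞 K)), Fterm Φ s γ
      ≤ ∑ i : Fin m, ∑' σ : ↥((J * I₀ : (Ideal (𝓞 K))⁰) : Ideal (𝓞 K)),
          Fterm Φ s (rep i + σ) := step1.trans step2
    _ ≤ ∑ i : Fin m, (∑' γ : NzMem ((J * I₀ : (Ideal (𝓞 K))⁰) : Ideal (𝓞 K)), Fterm Φ s γ +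
        (∑' z : 𝓞 K, errAll β C z + ∑' z : 𝓞 K, errAll β C z)) :=
        Finset.sum_le_sum fun i _ => step3 i
    _ = (m : ℝ≥0∞) * (∑' γ : NzMem ((J * I₀ : (Ideal (𝓞 K))⁰) : Ideal (𝓞 K)), Fterm Φ s γ +
        (∑' z : 𝓞 K, errAll β C z + ∑' z : 𝓞 K, errAll β C z)) := by
        rw [Finset.sum_const, Finset.card_univ, Fintype.card_fin, nsmul_eq_mul]

theorem kappa_gt_one (K : Type*) [Field K] [NumberField K] :
    (1 : ℝ) < 1 + 1 / (Module.finrank ℚ K : ℝ) := by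
  have h : (0 : ℝ) < (Module.finrank ℚ K : ℝ) := finrank_pos_real
  have h2 : (0 : ℝ) < 1 / (Module.finrank ℚ K : ℝ) := one_div_pos.mpr h
  linarith

/-- the one-sided comparison of the class sums of `[J]⁻¹` and `[J * I₀]⁻¹`, in `ℝ`. -/
theorem classSum_le (J I₀ : (Ideal (𝓞 K))⁰)
    (hsum : ∀ s : ℝ, 1 < s → Summable fun I : (Ideal (𝓞 K))⁰ =>
      (absNorm (I : Ideal (𝓞 K)) : ℝ) ^ (-s)) :
    ∃ B : ℝ, ∀ s : ℝ, 1 < s → s ≤ 2 →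
      ∑' I : ClassInv J, (absNorm ((I.1 : (Ideal (𝓞 K))⁰) : Ideal (𝓞 K)) : ℝ) ^ (-s) ≤
        ∑' I : ClassInv (J * I₀),
          (absNorm ((I.1 : (Ideal (𝓞 K))⁰) : Ideal (𝓞 K)) : ℝ) ^ (-s) + B := by
  obtain ⟨m, Γ, hm, hΓ, h⟩ := nested_compare J I₀ (hsum _ (kappa_gt_one K))
  -- the real quantities
  have hN1 : (1 : ℝ) ≤ (absNorm (J : Ideal (𝓞 K)) : ℝ) := by
    have h0 : absNorm (J : Ideal (𝓞 K)) ≠ 0 := by
      rw [Ne, Ideal.absNorm_eq_zero_iff]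
      exact coe_ne_bot J
    exact_mod_cast Nat.one_le_iff_ne_zero.mpr h0
  have hm1 : (1 : ℝ) ≤ (m : ℝ) := by
    have h0 : m ≠ 0 := by
      rintro rfl
      rw [Nat.zero_mul] at hm
      exact coe_ne_bot (J * I₀) (Ideal.absNorm_eq_zero_iff.mp hm.symm)
    exact_mod_cast Nat.one_le_iff_ne_zero.mpr h0
  have hmR : (absNorm ((J * I₀ : (Ideal (𝓞 K))⁰) : Ideal (𝓞 K)) : ℝ) =
      (m : ℝ) * (absNorm (J : Ideal (𝓞 K)) : ℝ) := by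
    rw [← hm]
    push_cast
    ring
  have ha2 : 0 < (absNorm (J : Ideal (𝓞 K)) : ℝ) ^ (-(2 : ℝ)) :=
    Real.rpow_pos_of_pos (by linarith) _
  have hΓr : ENNReal.ofReal Γ.toReal = Γ := ENNReal.ofReal_toReal hΓ.ne
  have hΓ0 : 0 ≤ Γ.toReal := ENNReal.toReal_nonneg
  refine ⟨(m : ℝ) * (Γ.toReal + Γ.toReal) / (absNorm (J : Ideal (𝓞 K)) : ℝ) ^ (-(2 : ℝ)),
    fun s hs1 hs2 => ?_⟩
  have hsumJ : Summable fun I : ClassInv J =>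
      (absNorm ((I.1 : (Ideal (𝓞 K))⁰) : Ideal (𝓞 K)) : ℝ) ^ (-s) :=
    (hsum s hs1).comp_injective Subtype.val_injective
  have hsumJ' : Summable fun I : ClassInv (J * I₀) =>
      (absNorm ((I.1 : (Ideal (𝓞 K))⁰) : Ideal (𝓞 K)) : ℝ) ^ (-s) :=
    (hsum s hs1).comp_injective Subtype.val_injective
  have hζ : clsSum s J = ENNReal.ofReal
      (∑' I : ClassInv J, (absNorm ((I.1 : (Ideal (𝓞 K))⁰) : Ideal (𝓞 K)) : ℝ) ^ (-s)) :=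
    (ENNReal.ofReal_tsum_of_nonneg (fun I => Real.rpow_nonneg (Nat.cast_nonneg _) _) hsumJ).symm
  have hζ' : clsSum s (J * I₀) = ENNReal.ofReal
      (∑' I : ClassInv (J * I₀),
        (absNorm ((I.1 : (Ideal (𝓞 K))⁰) : Ideal (𝓞 K)) : ℝ) ^ (-s)) :=
    (ENNReal.ofReal_tsum_of_nonneg (fun I => Real.rpow_nonneg (Nat.cast_nonneg _) _)
      hsumJ').symm
  have hζ0 : 0 ≤ ∑' I : ClassInv J,
      (absNorm ((I.1 : (Ideal (𝓞 K))⁰) : Ideal (𝓞 K)) : ℝ) ^ (-s) :=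
    tsum_nonneg fun I => Real.rpow_nonneg (Nat.cast_nonneg _) _
  have hζ'0 : 0 ≤ ∑' I : ClassInv (J * I₀),
      (absNorm ((I.1 : (Ideal (𝓞 K))⁰) : Ideal (𝓞 K)) : ℝ) ^ (-s) :=
    tsum_nonneg fun I => Real.rpow_nonneg (Nat.cast_nonneg _) _
  have key := h s hs1.le hs2
  rw [hζ, hζ', ← hΓr] at key
  generalize (∑' I : ClassInv J,
    (absNorm ((I.1 : (Ideal (𝓞 K))⁰) : Ideal (𝓞 K)) : ℝ) ^ (-s)) = ζ at key hζ0 ⊢
  generalize (∑' I : ClassInv (J * I₀),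
    (absNorm ((I.1 : (Ideal (𝓞 K))⁰) : Ideal (𝓞 K)) : ℝ) ^ (-s)) = ζ' at key hζ'0 ⊢
  have ha : 0 < (absNorm (J : Ideal (𝓞 K)) : ℝ) ^ (-s) := Real.rpow_pos_of_pos (by linarith) _
  have ha' : 0 ≤ (absNorm ((J * I₀ : (Ideal (𝓞 K))⁰) : Ideal (𝓞 K)) : ℝ) ^ (-s) :=
    Real.rpow_nonneg (Nat.cast_nonneg _) _
  rw [← ENNReal.ofReal_mul ha.le, ← ENNReal.ofReal_mul ha', ← ENNReal.ofReal_add hΓ0 hΓ0,
    ← ENNReal.ofReal_add (mul_nonneg ha' hζ'0) (add_nonneg hΓ0 hΓ0),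
    ← ENNReal.ofReal_natCast m, ← ENNReal.ofReal_mul (Nat.cast_nonneg m),
    ENNReal.ofReal_le_ofReal_iff (mul_nonneg (Nat.cast_nonneg m)
      (add_nonneg (mul_nonneg ha' hζ'0) (add_nonneg hΓ0 hΓ0)))] at key
  -- `m * N(J')^{-s} ≤ N(J)^{-s}`
  have hma : (m : ℝ) * (absNorm ((J * I₀ : (Ideal (𝓞 K))⁰) : Ideal (𝓞 K)) : ℝ) ^ (-s) ≤
      (absNorm (J : Ideal (𝓞 K)) : ℝ) ^ (-s) := by
    rw [hmR, Real.mul_rpow (Nat.cast_nonneg m) (Nat.cast_nonneg _), ← mul_assoc]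
    have h1 : (m : ℝ) ^ (-s) ≤ (m : ℝ) ^ (-(1 : ℝ)) :=
      Real.rpow_le_rpow_of_exponent_le hm1 (by linarith)
    rw [Real.rpow_neg_one] at h1
    have h2 : (m : ℝ) * (m : ℝ) ^ (-s) ≤ (m : ℝ) * (m : ℝ)⁻¹ :=
      mul_le_mul_of_nonneg_left h1 (Nat.cast_nonneg m)
    rw [mul_inv_cancel₀ (by linarith : (m : ℝ) ≠ 0)] at h2
    calc (m : ℝ) * (m : ℝ) ^ (-s) * (absNorm (J : Ideal (𝓞 K)) : ℝ) ^ (-s)
        ≤ 1 * (absNorm (J : Ideal (𝓞 K)) : ℝ) ^ (-s) := mul_le_mul_of_nonneg_right h2 ha.le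
      _ = (absNorm (J : Ideal (𝓞 K)) : ℝ) ^ (-s) := one_mul _
  have ha2le : (absNorm (J : Ideal (𝓞 K)) : ℝ) ^ (-(2 : ℝ)) ≤
      (absNorm (J : Ideal (𝓞 K)) : ℝ) ^ (-s) :=
    Real.rpow_le_rpow_of_exponent_le hN1 (by linarith)
  generalize (absNorm (J : Ideal (𝓞 K)) : ℝ) ^ (-s) = a at key ha hma ha2le
  generalize (absNorm ((J * I₀ : (Ideal (𝓞 K))⁰) : Ideal (𝓞 K)) : ℝ) ^ (-s) = a' at key ha' hma
  generalize (absNorm (J : Ideal (𝓞 K)) : ℝ) ^ (-(2 : ℝ)) = a₂ at ha2 ha2le ⊢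
  -- a * ζ ≤ m * (a' * ζ' + 2Γ) ≤ a * ζ' + m * 2Γ
  have k1 : a * ζ ≤ a * ζ' + (m : ℝ) * (Γ.toReal + Γ.toReal) := by
    have : (m : ℝ) * a' * ζ' ≤ a * ζ' := mul_le_mul_of_nonneg_right hma hζ'0
    calc a * ζ ≤ (m : ℝ) * (a' * ζ' + (Γ.toReal + Γ.toReal)) := key
      _ = (m : ℝ) * a' * ζ' + (m : ℝ) * (Γ.toReal + Γ.toReal) := by ring
      _ ≤ a * ζ' + (m : ℝ) * (Γ.toReal + Γ.toReal) := by linarith
  have hX : 0 ≤ (m : ℝ) * (Γ.toReal + Γ.toReal) :=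
    mul_nonneg (Nat.cast_nonneg m) (add_nonneg hΓ0 hΓ0)
  have k2 : ζ - ζ' ≤ (m : ℝ) * (Γ.toReal + Γ.toReal) / a₂ := by
    rw [le_div_iff₀ ha2]
    rcases le_total (ζ - ζ') 0 with hneg | hpos
    · have : (ζ - ζ') * a₂ ≤ 0 := mul_nonpos_of_nonpos_of_nonneg hneg ha2.le
      linarith
    · have h1 : (ζ - ζ') * a₂ ≤ (ζ - ζ') * a := mul_le_mul_of_nonneg_left ha2le hpos
      have h2 : (ζ - ζ') * a = a * ζ - a * ζ' := by ring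
      linarith
  linarith

/-- **One-sided class comparison**: `ζ_c(s) ≤ ζ_{c'}(s) + B` on `(1, 2]`. -/
theorem classZeta_le
    (hsum : ∀ s : ℝ, 1 < s → Summable fun I : (Ideal (𝓞 K))⁰ =>
      (absNorm (I : Ideal (𝓞 K)) : ℝ) ^ (-s))
    (c c' : ClassGroup (𝓞 K)) :
    ∃ B : ℝ, ∀ s : ℝ, 1 < s → s ≤ 2 →
      ∑' I : {I : (Ideal (𝓞 K))⁰ // ClassGroup.mk0 I = c},
          (absNorm (I.1 : Ideal (𝓞 K)) : ℝ) ^ (-s) ≤
        ∑' I : {I : (Ideal (𝓞 K))⁰ // ClassGroup.mk0 I = c'},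
          (absNorm (I.1 : Ideal (𝓞 K)) : ℝ) ^ (-s) + B := by
  obtain ⟨J, hJ⟩ := ClassGroup.mk0_surjective c⁻¹
  obtain ⟨I₀, hI₀⟩ := ClassGroup.mk0_surjective (c * c'⁻¹)
  have h1 : (ClassGroup.mk0 J)⁻¹ = c := by rw [hJ, inv_inv]
  have h2 : (ClassGroup.mk0 (J * I₀))⁻¹ = c' := by
    rw [map_mul, hJ, hI₀]
    group
  subst h1
  subst h2
  exact classSum_le J I₀ hsum

/-- **The partial zeta functions of two ideal classes differ by a bounded function on `(1, 2]`**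
(given the convergence of the Dedekind zeta series for real `s > 1`). -/
theorem classZeta_sub_bounded
    (hsum : ∀ s : ℝ, 1 < s → Summable fun I : (Ideal (𝓞 K))⁰ =>
      (absNorm (I : Ideal (𝓞 K)) : ℝ) ^ (-s))
    (c c' : ClassGroup (𝓞 K)) :
    ∃ B : ℝ, ∀ s : ℝ, 1 < s → s ≤ 2 →
      |∑' I : {I : (Ideal (𝓞 K))⁰ // ClassGroup.mk0 I = c},
          (absNorm (I.1 : Ideal (𝓞 K)) : ℝ) ^ (-s) -
        ∑' I : {I : (Ideal (𝓞 K))⁰ // ClassGroup.mk0 I = c'},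
          (absNorm (I.1 : Ideal (𝓞 K)) : ℝ) ^ (-s)| ≤ B := by
  obtain ⟨B₁, h₁⟩ := classZeta_le hsum c c'
  obtain ⟨B₂, h₂⟩ := classZeta_le hsum c' c
  refine ⟨max B₁ B₂, fun s hs1 hs2 => ?_⟩
  have e1 := h₁ s hs1 hs2
  have e2 := h₂ s hs1 hs2
  have m1 := le_max_left B₁ B₂
  have m2 := le_max_right B₁ B₂
  rw [abs_le]
  constructor <;> linarith

end Fermat.Agent.Lib.NestedZeta
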