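/-
S14 [ClassZeta] route (d) (helper32): the contract `Fermat.Agent.S14.Thaine.ClassZetaStmt`,
from the nested-ideal comparison (`Lib/NestedZeta/Main.lean`) and the convergence of the
Dedekind zeta series (helper27's `Lib/IdealEulerNF.lean`).
-/
import Mathlib
import Fermat.Agent.Lib.NestedZeta.Main
import Fermat.Agent.Lib.IdealEulerNF
import Fermat.Agent.S14.Thaine.Plan

set_option autoImplicit false

namespace Fermat.Agent.Lib.NestedZeta

open NumberField Ideal nonZeroDivisors

/-- **The partial zeta functions of two ideal classes differ by a bounded function on `(1, 2]`**,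
unconditionally, for every number field. -/
theorem classZeta_sub_bounded_uncond (K : Type*) [Field K] [NumberField K]
    (c c' : ClassGroup (𝓞 K)) :
    ∃ B : ℝ, ∀ s : ℝ, 1 < s → s ≤ 2 →
      |∑' I : {I : (Ideal (𝓞 K))⁰ // ClassGroup.mk0 I = c},
          (absNorm (I.1 : Ideal (𝓞 K)) : ℝ) ^ (-s) -
        ∑' I : {I : (Ideal (𝓞 K))⁰ // ClassGroup.mk0 I = c'},
          (absNorm (I.1 : Ideal (𝓞 K)) : ℝ) ^ (-s)| ≤ B :=
  classZeta_sub_bounded
    (fun _ hs => Fermat.Agent.Lib.IdealEulerNF.summable_absNorm_rpow_nonZero K hs) c c'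

/-- the [ClassZeta] contract of the Thaine route of S14. -/
theorem classZetaStmt : Fermat.Agent.S14.Thaine.ClassZetaStmt := by
  intro K _ _ c c'
  exact ⟨fun s hs => Fermat.Agent.Lib.IdealEulerNF.summable_absNorm_rpow_class K c hs,
    classZeta_sub_bounded_uncond K c c'⟩

end Fermat.Agent.Lib.NestedZeta
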